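import Fermat.Agent.H18.SS2.DKPoint

/-!
# P-SS2, row SS2-A8 : DK-SPLIT (helper18)

`dkSplit : Fermat.Agent.H11.SS2.DKSplitStatement`.

Proof.  `A = O[z] ≅ O[X] / (P₀)`.  The two ring homomorphisms `Q ↦ Q(0) mod π` and
`Q ↦ Q(-c) mod π` kill `P₀`, hence define two maximal ideals `𝔪₁ = z A`, `𝔪₂ = (π, z + c)` of
`A`; `A_𝔪₁` has maximal ideal `(z)`, `A_𝔪₂` has maximal ideal `(π)` (because
`z ^ (n-1) (z + c) = - π R(z)` and `z` is a unit at `𝔪₂`), so both are discrete valuation
subrings (`dk_point`, `locDvr`).  A valuation subring `V` above `O` contains `A`, and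
`z ^ (n-1) (z + c)` is a non-unit of `V`, so `V` dominates `A_𝔪₁` or `A_𝔪₂` and equals it by
DVR-maximality.
-/

set_option autoImplicit false
set_option linter.unusedSectionVars false
set_option maxHeartbeats 3200000

noncomputable section

namespace Fermat.Agent.H18.SS2

open Polynomial Fermat.Agent.H11.SS2

/-- **DK-SPLIT** (row SS2-A8). -/
theorem dkSplit : DKSplitStatement := by
  intro K L _ _ _ _ O π hPID hπ n hn hfin P z c hPm hPdeg hPO hz hgen hcO hcu hcong hP0 hP0u
  classical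
  have := hPID
  obtain ⟨hπ0, hπn, hπdiv⟩ := hπ
  have hπO : π ∈ O := O.nonunits_subset hπn
  have hπinv : π⁻¹ ∉ O := by
    rcases O.mem_nonunits_iff_or.mp hπn with h | h
    · exact absurd h hπ0
    · exact h
  have hOtop : O ≠ ⊤ := fun h => hπinv (by rw [h]; exact ValuationSubring.mem_top _)
  have hdvrO : IsDiscreteValuationRing O := wa_isDVR O hOtop
  set π₀ : ↥O := ⟨π, hπO⟩ with hπ₀
  have hπ₀0 : π₀ ≠ 0 := fun h => hπ0 (congrArg Subtype.val h)
  -- non-units of `O` are multiples of `π₀`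
  have hnonO : ∀ a : ↥O, (a : K) ∈ O.nonunits → ∃ b : ↥O, a = π₀ * b := by
    intro a ha
    refine ⟨⟨_, hπdiv _ ha⟩, Subtype.ext ?_⟩
    push_cast
    field_simp
    rfl
  have hresπ : ∀ b : ↥O, IsLocalRing.residue (↥O) (π₀ * b) = 0 := by
    intro b
    rw [IsLocalRing.residue_eq_zero_iff]
    refine Ideal.mul_mem_right _ _ ?_
    rw [← O.coe_mem_nonunits_iff]
    exact hπn
  have hres_ne : ∀ a : ↥O, (a : K) ∉ O.nonunits → IsLocalRing.residue (↥O) a ≠ 0 := by
    intro a ha h
    rw [IsLocalRing.residue_eq_zero_iff, ← O.coe_mem_nonunits_iff] at h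
    exact ha h
  have hres_zero : ∀ a : ↥O, IsLocalRing.residue (↥O) a = 0 → ∃ b : ↥O, a = π₀ * b := by
    intro a h
    rw [IsLocalRing.residue_eq_zero_iff, ← O.coe_mem_nonunits_iff] at h
    exact hnonO a h
  -- lift `P`
  have hPlift : P ∈ Polynomial.lifts (algebraMap (↥O) K) := by
    rw [Polynomial.lifts_iff_coeff_lifts]
    intro i
    exact ⟨⟨P.coeff i, hPO i⟩, rfl⟩
  obtain ⟨P₀, hP₀map, hP₀deg, hP₀m⟩ := Polynomial.lifts_and_natDegree_eq_and_monic hPlift hPm
  have hP₀z : aeval z P₀ = 0 := by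
    rw [← aeval_map_algebraMap K, hP₀map]
    exact hz
  have hP₀coeff : ∀ i, ((P₀.coeff i : ↥O) : K) = P.coeff i := by
    intro i
    rw [← hP₀map, coeff_map]
    rfl
  set c₀ : ↥O := ⟨c, hcO⟩ with hc₀
  obtain ⟨m, hm⟩ : ∃ m, n = m + 2 := ⟨n - 2, by omega⟩
  have hn1 : n - 1 = m + 1 := by omega
  -- the congruence
  have hdvd : C π₀ ∣ P₀ - X ^ (n - 1) * (X + C c₀) := by
    rw [Polynomial.C_dvd_iff_dvd_coeff]
    intro i
    have h1 : (((P₀ - X ^ (n - 1) * (X + C c₀)).coeff i : ↥O) : K)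
        = (P - X ^ (n - 1) * (X + C c)).coeff i := by
      have h2 : (P₀ - X ^ (n - 1) * (X + C c₀)).map (algebraMap (↥O) K)
          = P - X ^ (n - 1) * (X + C c) := by
        rw [Polynomial.map_sub, hP₀map, Polynomial.map_mul, Polynomial.map_pow,
          Polynomial.map_add, Polynomial.map_X, Polynomial.map_C]
        rfl
      rw [← h2, coeff_map]
      rfl
    obtain ⟨b, hb⟩ := hnonO _ (by rw [h1]; exact hcong i)
    exact ⟨b, hb⟩
  obtain ⟨R₀, hR₀⟩ := hdvd
  have hPR : P₀ = X ^ (n - 1) * (X + C c₀) + C π₀ * R₀ := by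
    rw [← hR₀]
    ring
  -- the constant coefficient
  have hcoeff0 : P₀.coeff 0 = π₀ * R₀.coeff 0 := by
    conv_lhs => rw [hPR]
    rw [coeff_add, coeff_C_mul, hn1, pow_succ, mul_assoc, coeff_zero_eq_eval_zero,
      eval_mul, eval_mul, eval_X]
    simp
  have hu₀ : ((R₀.coeff 0 : ↥O) : K) ∉ O.nonunits := by
    have h1 : ((R₀.coeff 0 : ↥O) : K) = P.coeff 0 / π := by
      rw [← hP₀coeff 0, hcoeff0]
      push_cast
      field_simp
      rfl
    rw [h1]
    exact hP0u
  have hu₀res : IsLocalRing.residue (↥O) (R₀.coeff 0) ≠ 0 := hres_ne _ hu₀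
  have hc₀res : IsLocalRing.residue (↥O) c₀ ≠ 0 := hres_ne _ hcu
  -- kernel and fractions
  have hdegmin : P₀.natDegree = (minpoly K z).natDegree := by
    rw [dk_natDegree_minpoly z hgen, hfin, hP₀deg, hPdeg]
  have hker : ∀ Q : (↥O)[X], aeval z Q = 0 → P₀ ∣ Q := fun Q hQ =>
    dk_dvd_of_aeval_eq_zero O z P₀ hP₀m hdegmin Q hQ hP₀z
  have hfrac := dk_frac O z hgen
  -- the basic relation `z ^ (n-1) (z + c) = - π R(z)`
  have hrel : z ^ (n - 1) * (z + algebraMap K L c) = -(algebraMap K L π * aeval z R₀) := by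
    have h1 : aeval z P₀ = z ^ (n - 1) * (z + algebraMap K L c) + algebraMap K L π * aeval z R₀ := by
      conv_lhs => rw [hPR]
      rw [map_add, map_mul, map_mul, map_pow, map_add, aeval_X, aeval_C, aeval_C]
      rfl
    rw [hP₀z] at h1
    exact eq_neg_of_add_eq_zero_left h1.symm
  have hz0 : z ≠ 0 := by
    rintro rfl
    have h1 : aeval (0 : L) P₀ = algebraMap (↥O) L (P₀.coeff 0) := by
      rw [aeval_def, eval₂_at_zero]
    rw [hP₀z] at h1
    have h2 : algebraMap K L ((P₀.coeff 0 : ↥O) : K) = 0 := h1.symm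
    rw [map_eq_zero_iff _ (algebraMap K L).injective, hP₀coeff 0] at h2
    apply hP0u
    rw [h2, zero_div]
    exact O.nonunits.zero_mem
  have hπL0 : algebraMap K L π ≠ 0 := by
    rw [Ne, map_eq_zero_iff _ (algebraMap K L).injective]
    exact hπ0
  -- the two points
  set ψ₁ : (↥O)[X] →+* IsLocalRing.ResidueField (↥O) :=
    (IsLocalRing.residue (↥O)).comp (Polynomial.evalRingHom 0) with hψ₁
  set ψ₂ : (↥O)[X] →+* IsLocalRing.ResidueField (↥O) :=
    (IsLocalRing.residue (↥O)).comp (Polynomial.evalRingHom (-c₀)) with hψ₂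
  have hψ₁apply : ∀ Q, ψ₁ Q = IsLocalRing.residue (↥O) (Q.eval 0) := fun Q => rfl
  have hψ₂apply : ∀ Q, ψ₂ Q = IsLocalRing.residue (↥O) (Q.eval (-c₀)) := fun Q => rfl
  have hψ₁P : ψ₁ P₀ = 0 := by
    rw [hψ₁apply, ← coeff_zero_eq_eval_zero, hcoeff0]
    exact hresπ _
  have hψ₂P : ψ₂ P₀ = 0 := by
    rw [hψ₂apply]
    have h1 : P₀.eval (-c₀) = π₀ * R₀.eval (-c₀) := by
      conv_lhs => rw [hPR]
      simp
    rw [h1]
    exact hresπ _
  -- decomposition at the first point
  have hdec₁ : ∀ Q : (↥O)[X], ψ₁ Q = 0 → ∃ B : (↥O)[X],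
      algebraMap K L ((R₀.coeff 0 : ↥O) : K) * aeval z Q = z * aeval z B := by
    intro Q hQ
    rw [hψ₁apply, ← coeff_zero_eq_eval_zero] at hQ
    obtain ⟨q, hq⟩ := hres_zero _ hQ
    refine ⟨C (R₀.coeff 0) * Q.divX - P₀.divX * C q, ?_⟩
    have h1 : aeval z Q = aeval z Q.divX * z + algebraMap K L π * algebraMap K L (q : K) := by
      conv_lhs => rw [← Polynomial.divX_mul_X_add Q, hq]
      rw [map_add, map_mul, aeval_X, aeval_C, map_mul]
      rfl
    have h2 : aeval z P₀.divX * z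
        + algebraMap K L π * algebraMap K L ((R₀.coeff 0 : ↥O) : K) = 0 := by
      have h3 : aeval z P₀ = aeval z P₀.divX * z
          + algebraMap K L π * algebraMap K L ((R₀.coeff 0 : ↥O) : K) := by
        conv_lhs => rw [← Polynomial.divX_mul_X_add P₀, hcoeff0]
        rw [map_add, map_mul, aeval_X, aeval_C, map_mul]
        rfl
      rw [← h3, hP₀z]
    rw [h1, map_sub, map_mul, map_mul, aeval_C, aeval_C]
    have e1 : algebraMap (↥O) L (R₀.coeff 0) = algebraMap K L ((R₀.coeff 0 : ↥O) : K) := rfl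
    have e2 : algebraMap (↥O) L q = algebraMap K L (q : K) := rfl
    rw [e1, e2]
    linear_combination (algebraMap K L (q : K)) * h2
  -- decomposition at the second point
  have hdec₂ : ∀ Q : (↥O)[X], ψ₂ Q = 0 → ∃ (Q₁ : (↥O)[X]) (q : ↥O),
      aeval z Q = (z + algebraMap K L c) * aeval z Q₁
        + algebraMap K L π * algebraMap K L (q : K) := by
    intro Q hQ
    rw [hψ₂apply] at hQ
    obtain ⟨q, hq⟩ := hres_zero _ hQ
    obtain ⟨Q₁, hQ₁⟩ := Polynomial.X_sub_C_dvd_sub_C_eval (a := -c₀) (p := Q)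
    refine ⟨Q₁, q, ?_⟩
    have h1 : Q = (X + C c₀) * Q₁ + C (π₀ * q) := by
      have h2 : Q = (X - C (-c₀)) * Q₁ + C (eval (-c₀) Q) := by
        rw [← hQ₁]
        ring
      rw [h2, hq]
      simp
    conv_lhs => rw [h1]
    rw [map_add, map_mul, map_add, aeval_X, aeval_C, aeval_C, map_mul]
    rfl
  have hψ₁C : ∀ a : ↥O, ψ₁ (C a) = IsLocalRing.residue (↥O) a := by
    intro a
    rw [hψ₁apply, eval_C]
  have hψ₂C : ∀ a : ↥O, ψ₂ (C a) = IsLocalRing.residue (↥O) a := by
    intro a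
    rw [hψ₂apply, eval_C]
  have hψ₁X : ψ₁ X = 0 := by
    rw [hψ₁apply, eval_X, map_zero]
  have hψ₂X : ψ₂ X ≠ 0 := by
    rw [hψ₂apply, eval_X, map_neg, neg_ne_zero]
    exact hc₀res
  have hψ₂π : ψ₂ (C π₀) = 0 := by
    rw [hψ₂C]
    have := hresπ 1
    rwa [mul_one] at this
  have hψ₁R : ψ₁ R₀ ≠ 0 := by
    rw [hψ₁apply, ← coeff_zero_eq_eval_zero]
    exact hu₀res
  have hψ₁Xc : ψ₁ (X + C c₀) ≠ 0 := by
    rw [hψ₁apply, eval_add, eval_X, eval_C, zero_add]
    exact hc₀res
  have hψ₂Xc : ψ₂ (X + C c₀) = 0 := by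
    rw [hψ₂apply, eval_add, eval_X, eval_C, neg_add_cancel, map_zero]
  have hψ₂Xpow : ψ₂ (X ^ (n - 1)) ≠ 0 := by
    rw [map_pow]
    exact pow_ne_zero _ hψ₂X
  have hzX : aeval z (X : (↥O)[X]) = z := aeval_X z
  have hπC : aeval z (C π₀ : (↥O)[X]) = algebraMap K L π := by
    rw [aeval_C]
    rfl
  have hXc : aeval z (X + C c₀ : (↥O)[X]) = z + algebraMap K L c := by
    rw [map_add, aeval_X, aeval_C]
    rfl
  -- the first point
  obtain ⟨W₁, hW₁mem, hW₁top, hW₁pid, hW₁non, hW₁unif, hW₁comap, hW₁res, hW₁uniq⟩ :=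
    dk_point O hOtop z P₀ hker hfrac ψ₁ hψ₁C hψ₁P X hψ₁X (by rw [hzX]; exact hz0) (by
      intro Q hQ
      obtain ⟨B, hB⟩ := hdec₁ Q hQ
      refine ⟨C (R₀.coeff 0), B, ?_, ?_⟩
      · rw [hψ₁C]
        exact hu₀res
      · rw [aeval_C, hzX]
        exact hB)
  -- the second point
  obtain ⟨W₂, hW₂mem, hW₂top, hW₂pid, hW₂non, hW₂unif, hW₂comap, hW₂res, hW₂uniq⟩ :=
    dk_point O hOtop z P₀ hker hfrac ψ₂ hψ₂C hψ₂P (C π₀) hψ₂π (by rw [hπC]; exact hπL0) (by
      intro Q hQ
      obtain ⟨Q₁, q, hQq⟩ := hdec₂ Q hQ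
      refine ⟨X ^ (n - 1), -(R₀ * Q₁) + X ^ (n - 1) * C q, hψ₂Xpow, ?_⟩
      rw [hπC, map_add, map_neg, map_mul, map_mul, map_pow, hzX, aeval_C, hQq]
      have e2 : algebraMap (↥O) L q = algebraMap K L (q : K) := rfl
      rw [e2]
      linear_combination (aeval z Q₁) * hrel)
  refine ⟨W₁, W₂, ?_, hW₁pid, hW₂pid, hW₁comap, hW₂comap, ?_, ?_, ?_, ?_, ?_, ?_, hW₁res, hW₂res⟩
  · -- `W₁ ≠ W₂`
    intro h
    have h1 : z ∈ W₁.nonunits := by
      rw [← hzX, hW₁non]
      exact hψ₁X
    rw [h, ← hzX, hW₂non] at h1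
    exact hψ₂X h1
  · -- completeness
    intro V hV
    have hOV : ∀ o : K, o ∈ O → algebraMap K L o ∈ V := by
      intro o ho
      have : o ∈ V.comap (algebraMap K L) := by rw [hV]; exact ho
      exact this
    have hzV : z ∈ V := by
      refine dk_root_mem V z (P.map (algebraMap K L)) (hPm.map _) (fun i => ?_) ?_
      · rw [coeff_map]
        exact hOV _ (hPO i)
      · rw [eval_map_algebraMap]
        exact hz
    have hAV : ∀ Q : (↥O)[X], aeval z Q ∈ V := by
      intro Q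
      rw [aeval_eq_sum_range]
      refine sum_mem (fun i _ => ?_)
      rw [Algebra.smul_def]
      exact V.mul_mem _ _ (hOV _ (Q.coeff i).2) (pow_mem hzV i)
    have hAVle : ∀ Q : (↥O)[X], V.valuation (aeval z Q) ≤ 1 := fun Q =>
      (V.valuation_le_one_iff _).mpr (hAV Q)
    have hπV : V.valuation (algebraMap K L π) < 1 := by
      rw [← V.mem_nonunits_iff, V.mem_nonunits_iff_or]
      right
      intro h
      apply hπinv
      have : π⁻¹ ∈ V.comap (algebraMap K L) := by
        rw [ValuationSubring.mem_comap, map_inv₀]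
        exact h
      rwa [hV] at this
    have hprod : V.valuation z ^ (n - 1) * V.valuation (z + algebraMap K L c) < 1 := by
      rw [← map_pow, ← map_mul, hrel, Valuation.map_neg, map_mul]
      calc V.valuation (algebraMap K L π) * V.valuation (aeval z R₀)
          ≤ V.valuation (algebraMap K L π) * 1 := by
            gcongr
            exact hAVle R₀
        _ = V.valuation (algebraMap K L π) := mul_one _
        _ < 1 := hπV
    have hzle : V.valuation z ≤ 1 := (V.valuation_le_one_iff _).mpr hzV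
    have hzcle : V.valuation (z + algebraMap K L c) ≤ 1 := by
      rw [← hXc]
      exact hAVle _
    have hcases : V.valuation z < 1 ∨ V.valuation (z + algebraMap K L c) < 1 := by
      by_contra hcon
      push Not at hcon
      obtain ⟨h1, h2⟩ := hcon
      have e1 : V.valuation z = 1 := le_antisymm hzle h1
      have e2 : V.valuation (z + algebraMap K L c) = 1 := le_antisymm hzcle h2
      rw [e1, e2, one_pow, one_mul] at hprod
      exact lt_irrefl _ hprod
    rcases hcases with hcase | hcase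
    · left
      refine hW₁uniq V hV hzV (fun Q hQ => ?_)
      obtain ⟨B, hB⟩ := hdec₁ Q hQ
      rw [V.mem_nonunits_iff]
      have hu1 : V.valuation (algebraMap K L ((R₀.coeff 0 : ↥O) : K)) = 1 := by
        have h1 : V.valuation (algebraMap K L ((R₀.coeff 0 : ↥O) : K)) ≤ 1 :=
          (V.valuation_le_one_iff _).mpr (hOV _ (R₀.coeff 0).2)
        have hu0 : ((R₀.coeff 0 : ↥O) : K) ≠ 0 := by
          intro h
          apply hu₀
          rw [h]
          exact O.nonunits.zero_mem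
        have hinvO : ((R₀.coeff 0 : ↥O) : K)⁻¹ ∈ O := by
          by_contra h
          exact hu₀ (O.mem_nonunits_iff_or.mpr (Or.inr h))
        have h2 : V.valuation (algebraMap K L (((R₀.coeff 0 : ↥O) : K)⁻¹)) ≤ 1 :=
          (V.valuation_le_one_iff _).mpr (hOV _ hinvO)
        have h3 : V.valuation (algebraMap K L ((R₀.coeff 0 : ↥O) : K))
            * V.valuation (algebraMap K L (((R₀.coeff 0 : ↥O) : K)⁻¹)) = 1 := by
          rw [← map_mul, ← map_mul, mul_inv_cancel₀ hu0, map_one, map_one]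
        refine le_antisymm h1 ?_
        calc (1 : _) = V.valuation (algebraMap K L ((R₀.coeff 0 : ↥O) : K))
              * V.valuation (algebraMap K L (((R₀.coeff 0 : ↥O) : K)⁻¹)) := h3.symm
          _ ≤ V.valuation (algebraMap K L ((R₀.coeff 0 : ↥O) : K)) * 1 := by gcongr
          _ = V.valuation (algebraMap K L ((R₀.coeff 0 : ↥O) : K)) := mul_one _
      have h4 : V.valuation (aeval z Q) = V.valuation z * V.valuation (aeval z B) := by
        rw [← map_mul, ← hB, map_mul, hu1, one_mul]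
      rw [h4]
      calc V.valuation z * V.valuation (aeval z B) ≤ V.valuation z * 1 := by
            gcongr
            exact hAVle B
        _ = V.valuation z := mul_one _
        _ < 1 := hcase
    · right
      refine hW₂uniq V hV hzV (fun Q hQ => ?_)
      obtain ⟨Q₁, q, hQq⟩ := hdec₂ Q hQ
      rw [V.mem_nonunits_iff, hQq]
      refine lt_of_le_of_lt (Valuation.map_add _ _ _) (max_lt ?_ ?_)
      · rw [map_mul]
        calc V.valuation (z + algebraMap K L c) * V.valuation (aeval z Q₁)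
            ≤ V.valuation (z + algebraMap K L c) * 1 := by
              gcongr
              exact hAVle Q₁
          _ = V.valuation (z + algebraMap K L c) := mul_one _
          _ < 1 := hcase
      · rw [map_mul]
        calc V.valuation (algebraMap K L π) * V.valuation (algebraMap K L (q : K))
            ≤ V.valuation (algebraMap K L π) * 1 := by
              gcongr
              exact (V.valuation_le_one_iff _).mpr (hOV _ q.2)
          _ = V.valuation (algebraMap K L π) := mul_one _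
          _ < 1 := hπV
  · -- `z` is a uniformiser of `W₁`
    rw [← hzX]
    exact hW₁unif
  · -- `π / z ^ (n-1) ∈ W₁`
    rw [hW₁mem]
    refine ⟨-(X + C c₀), R₀, hψ₁R, ?_⟩
    rw [map_neg, hXc]
    have hzp : z ^ (n - 1) ≠ 0 := pow_ne_zero _ hz0
    field_simp
    linear_combination hrel
  · -- `z ^ (n-1) / π ∈ W₁`
    rw [hW₁mem]
    refine ⟨-R₀, X + C c₀, hψ₁Xc, ?_⟩
    rw [map_neg, hXc]
    field_simp
    linear_combination hrel
  · -- `z + c ∈ 𝔪_{W₂}`
    rw [← hXc, hW₂non]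
    exact hψ₂Xc
  · -- `π` is a uniformiser of `W₂`
    rw [← hπC]
    exact hW₂unif

end Fermat.Agent.H18.SS2
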