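import Mathlib

/-!
# P-SS2, row SS2-A4 (part 1): weak approximation for rank-one valuation subrings (helper18)

Mathlib only.  `E` a field.

* `IsRankOneVS V` : `V ≠ ⊤` and `V` is archimedean: for every nonzero non-unit `x` of `V` and
  every `y : E` some `x ^ n * y` lies in `V`.
* `isRankOneVS_of_pid` : a valuation subring `V ≠ ⊤` which is a principal ideal ring (a discrete
  valuation ring; this is the convention of `H22.KL.IsPlace`) is of rank one.
* `weakApprox_finset`, `weakApprox` : **weak approximation**.  For finitely many pairwise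
  distinct rank-one valuation subrings `V i`, targets `a i : E` and moduli `c i : E` there is
  `g : E` with `(g - a i) / c i ∈ V i` for all `i`   (`g ≡ a i mod c i V i`).
* `weakApprox_pid`, `weakApprox_pow`, `weakApprox_units` : the discrete forms.
-/

set_option autoImplicit false

namespace Fermat.Agent.H18.SS2

variable {E : Type*} [Field E]

/-- A valuation subring of rank one: proper and archimedean. -/
def IsRankOneVS (V : ValuationSubring E) : Prop :=
  V ≠ ⊤ ∧ ∀ x ∈ V.nonunits, x ≠ 0 → ∀ y : E, ∃ n : ℕ, x ^ n * y ∈ V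

theorem wa_not_mem_iff (V : ValuationSubring E) (x : E) : x ∉ V ↔ 1 < V.valuation x := by
  rw [← V.valuation_le_one_iff, not_le]

theorem wa_maximalIdeal_ne_bot (V : ValuationSubring E) (hV : V ≠ ⊤) :
    IsLocalRing.maximalIdeal V ≠ ⊥ := by
  intro h
  apply hV
  rw [eq_top_iff]
  intro x _
  by_contra hx
  have hx0 : x ≠ 0 := fun h0 => hx (h0 ▸ V.zero_mem)
  have hxi : x⁻¹ ∈ V.nonunits := by
    rw [V.inv_mem_nonunits_iff]
    exact Or.inr hx
  have hxi' : x⁻¹ ∈ V := V.nonunits_subset hxi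
  have hm : (⟨x⁻¹, hxi'⟩ : V) ∈ IsLocalRing.maximalIdeal V := by
    rw [← V.coe_mem_nonunits_iff]
    exact hxi
  rw [h, Ideal.mem_bot] at hm
  have : (x⁻¹ : E) = 0 := congrArg Subtype.val hm
  exact hx0 (inv_eq_zero.mp this)

/-- A valuation subring `≠ ⊤` which is a principal ideal ring is a discrete valuation ring. -/
theorem wa_isDVR (V : ValuationSubring E) (hV : V ≠ ⊤) [IsPrincipalIdealRing V] :
    IsDiscreteValuationRing V :=
  { not_a_field' := wa_maximalIdeal_ne_bot V hV }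

/-- A valuation subring which is a discrete valuation ring has rank one. -/
theorem isRankOneVS_of_pid (V : ValuationSubring E) (hV : V ≠ ⊤) [IsPrincipalIdealRing V] :
    IsRankOneVS V := by
  refine ⟨hV, fun x hx hx0 y => ?_⟩
  have hdvr : IsDiscreteValuationRing V := wa_isDVR V hV
  obtain ⟨ϖ, hϖ⟩ := IsDiscreteValuationRing.exists_irreducible V
  by_cases hy : y ∈ V
  · exact ⟨0, by simpa using hy⟩
  · have hyi : y⁻¹ ∈ V := (V.mem_or_inv_mem y).resolve_left hy
    have hy0 : y ≠ 0 := fun h0 => hy (h0 ▸ V.zero_mem)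
    have hw0 : (⟨y⁻¹, hyi⟩ : V) ≠ 0 := by
      intro h
      exact inv_ne_zero hy0 (congrArg Subtype.val h)
    obtain ⟨n, hn⟩ := IsDiscreteValuationRing.associated_pow_irreducible hw0 hϖ
    have hxV : x ∈ V := V.nonunits_subset hx
    have hxm : (⟨x, hxV⟩ : V) ∈ IsLocalRing.maximalIdeal V := by
      rw [← V.coe_mem_nonunits_iff]
      exact hx
    rw [hϖ.maximalIdeal_eq, Ideal.mem_span_singleton] at hxm
    obtain ⟨c, hc⟩ := hxm
    obtain ⟨u, hu⟩ := hn.symm
    -- `ϖ ^ n * u = y⁻¹`, `x = ϖ * c`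
    refine ⟨n, ?_⟩
    have h1 : x = (ϖ : E) * (c : E) := congrArg Subtype.val hc
    have h2 : (ϖ : E) ^ n * ((u : V) : E) = y⁻¹ := by
      have := congrArg Subtype.val hu
      simpa using this
    have hu0 : ((u : V) : E) ≠ 0 := by
      intro h
      exact u.ne_zero (Subtype.ext h)
    have h3 : x ^ n * y = (c : E) ^ n * (((u⁻¹ : Vˣ) : V) : E) := by
      have hui : (((u⁻¹ : Vˣ) : V) : E) = (((u : V) : E))⁻¹ := by
        have h : ((u⁻¹ : Vˣ) : V) * (u : V) = 1 := u.inv_mul
        have h' : (((u⁻¹ : Vˣ) : V) : E) * ((u : V) : E) = 1 := by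
          rw [← MulMemClass.coe_mul, h]
          rfl
        exact eq_inv_of_mul_eq_one_left h'
      have hy' : y = ((ϖ : E) ^ n * ((u : V) : E))⁻¹ := by rw [h2, inv_inv]
      have hϖ0 : (ϖ : E) ≠ 0 := by
        intro h
        exact hϖ.ne_zero (Subtype.ext h)
      rw [hui, h1, hy', mul_pow]
      field_simp
    rw [h3]
    exact V.mul_mem _ _ (pow_mem c.2 n) ((u⁻¹ : Vˣ) : V).2

/-- In a rank-one valuation subring the powers of a nonzero non-unit become arbitrarily small. -/
theorem IsRankOneVS.exists_pow_lt {V : ValuationSubring E} (hV : IsRankOneVS V) {x : E}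
    (hx : V.valuation x < 1) (hx0 : x ≠ 0) (y : E) :
    ∃ n₀ : ℕ, ∀ n, n₀ ≤ n → V.valuation (x ^ n * y) < 1 := by
  obtain ⟨n, hn⟩ := hV.2 x (V.mem_nonunits_iff.mpr hx) hx0 y
  refine ⟨n + 1, fun m hm => ?_⟩
  obtain ⟨k, rfl⟩ := Nat.exists_eq_add_of_le hm
  have h1 : x ^ (n + 1 + k) * y = x ^ (k + 1) * (x ^ n * y) := by ring
  rw [h1, map_mul, map_pow]
  have h2 : V.valuation (x ^ n * y) ≤ 1 := (V.valuation_le_one_iff _).mpr hn
  have h3 : V.valuation x ^ (k + 1) < 1 := pow_lt_one₀ zero_le hx (Nat.succ_ne_zero k)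
  calc V.valuation x ^ (k + 1) * V.valuation (x ^ n * y)
      ≤ V.valuation x ^ (k + 1) * 1 := by gcongr
    _ = V.valuation x ^ (k + 1) := mul_one _
    _ < 1 := h3

/-- Two distinct rank-one valuation subrings are incomparable. -/
theorem IsRankOneVS.exists_mem_not_mem {V W : ValuationSubring E} (hV : IsRankOneVS V)
    (hW : IsRankOneVS W) (hne : V ≠ W) : ∃ x : E, x ∈ V ∧ x ∉ W := by
  by_contra hcon
  push Not at hcon
  -- `V ≤ W`
  have hle : V ≤ W := fun x hx => hcon x hx
  have hne' : ¬ W ≤ V := fun h => hne (le_antisymm hle h)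
  obtain ⟨w, hwW, hwV⟩ := Set.not_subset.mp hne'
  have hw0 : w ≠ 0 := fun h0 => hwV (h0 ▸ V.zero_mem)
  have hwi : w⁻¹ ∈ V.nonunits := by
    rw [V.inv_mem_nonunits_iff]
    exact Or.inr hwV
  apply hW.1
  rw [eq_top_iff]
  intro y _
  obtain ⟨n, hn⟩ := hV.2 w⁻¹ hwi (inv_ne_zero hw0) y
  have h1 : y = w ^ n * (w⁻¹ ^ n * y) := by
    rw [← mul_assoc, ← mul_pow, mul_inv_cancel₀ hw0, one_pow, one_mul]
  rw [h1]
  exact W.mul_mem _ _ (pow_mem hwW n) (hle hn)

/-- Two distinct rank-one valuations: an element large at `V` and small at `W`. -/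
theorem IsRankOneVS.exists_sep_two {V W : ValuationSubring E} (hV : IsRankOneVS V)
    (hW : IsRankOneVS W) (hne : V ≠ W) :
    ∃ a : E, 1 < V.valuation a ∧ W.valuation a < 1 := by
  obtain ⟨b, hbV, hbW⟩ := hV.exists_mem_not_mem hW hne
  obtain ⟨c, hcW, hcV⟩ := hW.exists_mem_not_mem hV (Ne.symm hne)
  have hb0 : b ≠ 0 := fun h0 => hbW (h0 ▸ W.zero_mem)
  rw [wa_not_mem_iff] at hbW hcV
  rw [← V.valuation_le_one_iff] at hbV
  rw [← W.valuation_le_one_iff] at hcW
  have hVb0 : V.valuation b ≠ 0 := (Valuation.ne_zero_iff _).mpr hb0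
  have hWb0 : W.valuation b ≠ 0 := (Valuation.ne_zero_iff _).mpr hb0
  refine ⟨c / b, ?_, ?_⟩
  · rw [map_div₀, lt_div_iff₀ (zero_lt_iff.mpr hVb0), one_mul]
    exact lt_of_le_of_lt hbV hcV
  · rw [map_div₀, div_lt_iff₀ (zero_lt_iff.mpr hWb0), one_mul]
    exact lt_of_le_of_lt hcW hbW

/-- A uniform bound: finitely many "eventually" statements hold simultaneously. -/
theorem wa_exists_uniform {α : Type*} (S : Finset α) (P : α → ℕ → Prop)
    (h : ∀ W ∈ S, ∃ n₀ : ℕ, ∀ n, n₀ ≤ n → P W n) :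
    ∃ n₀ : ℕ, ∀ W ∈ S, ∀ n, n₀ ≤ n → P W n := by
  classical
  induction S using Finset.induction_on with
  | empty => exact ⟨0, fun W hW => absurd hW (Finset.notMem_empty W)⟩
  | insert W S hWS ih =>
    obtain ⟨n₁, h₁⟩ := ih (fun U hU => h U (Finset.mem_insert_of_mem hU))
    obtain ⟨n₂, h₂⟩ := h W (Finset.mem_insert_self W S)
    refine ⟨max n₁ n₂, fun U hU n hn => ?_⟩
    rcases Finset.mem_insert.mp hU with rfl | hU
    · exact h₂ n (le_trans (le_max_right _ _) hn)
    · exact h₁ U hU n (le_trans (le_max_left _ _) hn)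

/-- **Separation**: an element large at `V` and small at finitely many other rank-one valuation
subrings. -/
theorem IsRankOneVS.exists_sep {V : ValuationSubring E} (hV : IsRankOneVS V)
    (S : Finset (ValuationSubring E)) (hS : ∀ W ∈ S, IsRankOneVS W) (hVS : V ∉ S) :
    ∃ a : E, 1 < V.valuation a ∧ ∀ W ∈ S, W.valuation a < 1 := by
  classical
  induction S using Finset.induction_on with
  | empty =>
    obtain ⟨x, -, hx⟩ := Set.not_subset.mp (fun h : ((⊤ : ValuationSubring E) : Set E) ⊆ V =>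
      hV.1 (eq_top_iff.mpr h))
    exact ⟨x, (wa_not_mem_iff V x).mp hx, fun W hW => absurd hW (Finset.notMem_empty W)⟩
  | insert W S hWS ih =>
    have hVW : V ≠ W := fun h => hVS (h ▸ Finset.mem_insert_self V S)
    have hVS' : V ∉ S := fun h => hVS (Finset.mem_insert_of_mem h)
    have hW : IsRankOneVS W := hS W (Finset.mem_insert_self W S)
    have hS' : ∀ U ∈ S, IsRankOneVS U := fun U hU => hS U (Finset.mem_insert_of_mem hU)
    obtain ⟨a, haV, haS⟩ := ih hS' hVS'
    obtain ⟨b, hbV, hbW⟩ := hV.exists_sep_two hW hVW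
    have ha0 : a ≠ 0 := by
      rintro rfl
      rw [map_zero] at haV
      exact not_lt_of_ge zero_le haV
    -- uniform exponent for the valuations in `S`
    obtain ⟨n₀, hn₀⟩ := wa_exists_uniform S (fun U n => U.valuation (a ^ n * b) < 1)
      (fun U hU => (hS' U hU).exists_pow_lt (haS U hU) ha0 b)
    by_cases haW : W.valuation a ≤ 1
    · -- `a ^ n * b`
      refine ⟨a ^ (n₀ + 1) * b, ?_, fun U hU => ?_⟩
      · rw [map_mul, map_pow]
        have h1 : 1 < V.valuation a ^ (n₀ + 1) := one_lt_pow₀ haV (Nat.succ_ne_zero _)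
        calc (1 : V.ValueGroup) = 1 * 1 := (mul_one 1).symm
          _ < V.valuation a ^ (n₀ + 1) * V.valuation b :=
            mul_lt_mul'' h1 hbV zero_le zero_le
      · rcases Finset.mem_insert.mp hU with rfl | hU
        · rw [map_mul, map_pow]
          have h1 : U.valuation a ^ (n₀ + 1) ≤ 1 := pow_le_one₀ zero_le haW
          calc U.valuation a ^ (n₀ + 1) * U.valuation b ≤ 1 * U.valuation b := by gcongr
            _ = U.valuation b := one_mul _
            _ < 1 := hbW
        · exact hn₀ U hU _ (Nat.le_succ _)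
    · -- `a ^ n * b / (1 + a ^ n)`
      rw [not_le] at haW
      set n := n₀ + 1 with hn
      have hVan : 1 < V.valuation (a ^ n) := by
        rw [map_pow]
        exact one_lt_pow₀ haV (Nat.succ_ne_zero _)
      have hWan : 1 < W.valuation (a ^ n) := by
        rw [map_pow]
        exact one_lt_pow₀ haW (Nat.succ_ne_zero _)
      have hV1 : V.valuation (1 + a ^ n) = V.valuation (a ^ n) := by
        apply Valuation.map_add_eq_of_lt_right
        rw [map_one]
        exact hVan
      have hW1 : W.valuation (1 + a ^ n) = W.valuation (a ^ n) := by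
        apply Valuation.map_add_eq_of_lt_right
        rw [map_one]
        exact hWan
      have hVa0 : V.valuation (a ^ n) ≠ 0 := (Valuation.ne_zero_iff _).mpr (pow_ne_zero _ ha0)
      have hWa0 : W.valuation (a ^ n) ≠ 0 := (Valuation.ne_zero_iff _).mpr (pow_ne_zero _ ha0)
      refine ⟨a ^ n * b / (1 + a ^ n), ?_, fun U hU => ?_⟩
      · rw [map_div₀, map_mul, hV1, mul_div_cancel_left₀ _ hVa0]
        exact hbV
      · rcases Finset.mem_insert.mp hU with rfl | hU
        · rw [map_div₀, map_mul, hW1, mul_div_cancel_left₀ _ hWa0]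
          exact hbW
        · have hUan : U.valuation (a ^ n) < 1 := by
            rw [map_pow]
            exact pow_lt_one₀ zero_le (haS U hU) (Nat.succ_ne_zero _)
          have hU1 : U.valuation (1 + a ^ n) = 1 := Valuation.map_one_add_of_lt _ hUan
          rw [map_div₀, hU1, div_one]
          exact hn₀ U hU _ (Nat.le_succ _)

/-- **Approximate idempotents**: `e ≡ 1` at `V` and `e ≡ 0` at the finitely many `W ∈ S`, to any
prescribed precision (`y` are arbitrary multipliers). -/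
theorem IsRankOneVS.exists_idem {V : ValuationSubring E} (hV : IsRankOneVS V)
    (S : Finset (ValuationSubring E)) (hS : ∀ W ∈ S, IsRankOneVS W) (hVS : V ∉ S)
    (y : ValuationSubring E → E) :
    ∃ e : E, (e - 1) * y V ∈ V ∧ ∀ W ∈ S, e * y W ∈ W := by
  obtain ⟨a, haV, haS⟩ := hV.exists_sep S hS hVS
  have ha0 : a ≠ 0 := by
    rintro rfl
    rw [map_zero] at haV
    exact not_lt_of_ge zero_le haV
  have hVa0 : V.valuation a ≠ 0 := (Valuation.ne_zero_iff _).mpr ha0
  have hai : V.valuation a⁻¹ < 1 := by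
    rw [map_inv₀]
    exact inv_lt_one_of_one_lt₀ haV
  obtain ⟨n₁, hn₁⟩ := hV.exists_pow_lt hai (inv_ne_zero ha0) (y V)
  obtain ⟨n₂, hn₂⟩ := wa_exists_uniform S (fun U n => U.valuation (a ^ n * y U) < 1)
    (fun U hU => (hS U hU).exists_pow_lt (haS U hU) ha0 (y U))
  set n := max n₁ n₂ + 1 with hn
  have hn1 : n₁ ≤ n := le_trans (le_max_left _ _) (Nat.le_succ _)
  have hn2 : n₂ ≤ n := le_trans (le_max_right _ _) (Nat.le_succ _)
  have hVan : 1 < V.valuation (a ^ n) := by
    rw [map_pow]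
    exact one_lt_pow₀ haV (Nat.succ_ne_zero _)
  have hV1 : V.valuation (1 + a ^ n) = V.valuation (a ^ n) := by
    apply Valuation.map_add_eq_of_lt_right
    rw [map_one]
    exact hVan
  have h10 : 1 + a ^ n ≠ 0 := by
    intro h
    rw [h, map_zero] at hV1
    rw [← hV1] at hVan
    exact not_lt_of_ge zero_le hVan
  refine ⟨a ^ n / (1 + a ^ n), ?_, fun U hU => ?_⟩
  · have h1 : (a ^ n / (1 + a ^ n) - 1) * y V = -(a⁻¹ ^ n * y V) * (a ^ n / (1 + a ^ n)) := by
      have han : a ^ n ≠ 0 := pow_ne_zero _ ha0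
      rw [inv_pow]
      field_simp
      ring
    rw [h1, ← V.valuation_le_one_iff, map_mul, Valuation.map_neg, map_div₀, hV1,
      div_self ((Valuation.ne_zero_iff _).mpr (pow_ne_zero _ ha0)), mul_one]
    exact (hn₁ n hn1).le
  · have hUan : U.valuation (a ^ n) < 1 := by
      rw [map_pow]
      exact pow_lt_one₀ zero_le (haS U hU) (Nat.succ_ne_zero _)
    have hU1 : U.valuation (1 + a ^ n) = 1 := Valuation.map_one_add_of_lt _ hUan
    have h1 : a ^ n / (1 + a ^ n) * y U = a ^ n * y U / (1 + a ^ n) := by ring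
    rw [h1, ← U.valuation_le_one_iff, map_div₀, hU1, div_one]
    exact (hn₂ U hU n hn2).le

/-- **WEAK APPROXIMATION** (finset form): for finitely many rank-one valuation subrings of `E`,
targets `a V` and moduli `c V`, there is `g : E` with `g ≡ a V mod c V · V` for all `V ∈ S`. -/
theorem weakApprox_finset (S : Finset (ValuationSubring E)) (hS : ∀ V ∈ S, IsRankOneVS V)
    (a c : ValuationSubring E → E) :
    ∃ g : E, ∀ V ∈ S, (g - a V) / c V ∈ V := by
  classical
  have hex : ∀ V : ValuationSubring E, ∃ e : E, V ∈ S →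
      ((e - 1) * (a V / c V) ∈ V ∧ ∀ W ∈ S.erase V, e * (a V / c W) ∈ W) := by
    intro V
    by_cases hV : V ∈ S
    · obtain ⟨e, he1, he2⟩ := (hS V hV).exists_idem (S.erase V)
        (fun W hW => hS W (Finset.mem_of_mem_erase hW)) (Finset.notMem_erase V S)
        (fun W => a V / c W)
      exact ⟨e, fun _ => ⟨he1, he2⟩⟩
    · exact ⟨0, fun h => absurd h hV⟩
  choose e he using hex
  refine ⟨∑ V ∈ S, a V * e V, fun W hW => ?_⟩
  have h1 : (∑ V ∈ S, a V * e V - a W) / c W
      = (e W - 1) * (a W / c W) + ∑ V ∈ S.erase W, e V * (a V / c W) := by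
    rw [← Finset.add_sum_erase S _ hW, Finset.sum_congr rfl
      (fun V _ => (mul_div_assoc (e V) (a V) (c W)).symm), ← Finset.sum_div]
    have h2 : ∑ V ∈ S.erase W, e V * a V = ∑ V ∈ S.erase W, a V * e V :=
      Finset.sum_congr rfl (fun V _ => mul_comm _ _)
    rw [h2]
    ring
  rw [h1]
  refine W.add_mem _ _ (he W hW).1 (sum_mem fun V hV => ?_)
  exact (he V (Finset.mem_of_mem_erase hV)).2 W
    (Finset.mem_erase.mpr ⟨(Finset.ne_of_mem_erase hV).symm, hW⟩)

/-- **WEAK APPROXIMATION** (family form): pairwise distinct rank-one valuation subrings `V i`,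
targets `a i`, moduli `c i`: there is `g` with `g ≡ a i mod c i · V i` for all `i`. -/
theorem weakApprox {ι : Type*} [Finite ι] (V : ι → ValuationSubring E)
    (hinj : Function.Injective V) (hV : ∀ i, IsRankOneVS (V i)) (a c : ι → E) :
    ∃ g : E, ∀ i, (g - a i) / c i ∈ V i := by
  classical
  have : Fintype ι := Fintype.ofFinite ι
  rcases isEmpty_or_nonempty ι with hι | hι
  · exact ⟨0, fun i => (hι.false i).elim⟩
  have hinv : ∀ i, Function.invFun V (V i) = i := fun i => Function.leftInverse_invFun hinj i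
  obtain ⟨g, hg⟩ := weakApprox_finset (Finset.univ.image V)
    (fun W hW => by
      obtain ⟨i, -, rfl⟩ := Finset.mem_image.mp hW
      exact hV i)
    (fun W => a (Function.invFun V W)) (fun W => c (Function.invFun V W))
  refine ⟨g, fun i => ?_⟩
  have := hg (V i) (Finset.mem_image_of_mem V (Finset.mem_univ i))
  simpa only [hinv] using this

/-- **WEAK APPROXIMATION** for pairwise distinct discrete valuation subrings. -/
theorem weakApprox_pid {ι : Type*} [Finite ι] (V : ι → ValuationSubring E)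
    (hinj : Function.Injective V) (hV : ∀ i, V i ≠ ⊤) (hP : ∀ i, IsPrincipalIdealRing (V i))
    (a c : ι → E) :
    ∃ g : E, ∀ i, (g - a i) / c i ∈ V i :=
  weakApprox V hinj (fun i => have := hP i; isRankOneVS_of_pid (V i) (hV i)) a c

/-- If `a ∈ V`, `c ∈ V` and `g ≡ a mod c V`, then `g ∈ V`. -/
theorem wa_mem_of_congr (V : ValuationSubring E) {a c g : E} (ha : a ∈ V) (hc : c ∈ V)
    (hc0 : c ≠ 0) (hg : (g - a) / c ∈ V) : g ∈ V := by
  have h1 : g = a + c * ((g - a) / c) := by field_simp; ring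
  rw [h1]
  exact V.add_mem _ _ ha (V.mul_mem _ _ hc hg)

/-- The valuation of a unit (`a ≠ 0`, `a ∈ V`, `a⁻¹ ∈ V`) is `1`. -/
theorem wa_valuation_unit (V : ValuationSubring E) {a : E} (ha0 : a ≠ 0) (ha : a ∈ V)
    (hai : a⁻¹ ∈ V) : V.valuation a = 1 := by
  have h1 := (V.valuation_le_one_iff a).mpr ha
  have h2 := (V.valuation_le_one_iff a⁻¹).mpr hai
  rw [map_inv₀] at h2
  have hv0 : V.valuation a ≠ 0 := (Valuation.ne_zero_iff _).mpr ha0
  exact le_antisymm h1 ((inv_le_one₀ (zero_lt_iff.mpr hv0)).mp h2)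

/-- If `a` is a unit of `V`, `c ≠ 0` a non-unit of `V` and `g ≡ a mod c V`, then `g` is a unit
of `V`. -/
theorem wa_unit_of_congr (V : ValuationSubring E) {a c g : E} (ha0 : a ≠ 0) (ha : a ∈ V)
    (hai : a⁻¹ ∈ V) (hc : c ∈ V.nonunits) (hc0 : c ≠ 0) (hg : (g - a) / c ∈ V) :
    g ≠ 0 ∧ g ∈ V ∧ g⁻¹ ∈ V := by
  have hva : V.valuation a = 1 := wa_valuation_unit V ha0 ha hai
  have hvc : V.valuation c < 1 := V.mem_nonunits_iff.mp hc
  have hd : V.valuation (g - a) < 1 := by
    have h1 : g - a = c * ((g - a) / c) := by field_simp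
    rw [h1, map_mul]
    calc V.valuation c * V.valuation ((g - a) / c) ≤ V.valuation c * 1 := by
          gcongr
          exact (V.valuation_le_one_iff _).mpr hg
      _ = V.valuation c := mul_one _
      _ < 1 := hvc
  have hvg : V.valuation g = 1 := by
    have h1 : g = a + (g - a) := by ring
    rw [h1, Valuation.map_add_eq_of_lt_left _ (by rw [hva]; exact hd), hva]
  refine ⟨?_, (V.valuation_le_one_iff g).mp hvg.le, (V.valuation_le_one_iff g⁻¹).mp ?_⟩
  · rintro rfl
    rw [map_zero] at hvg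
    exact zero_ne_one hvg
  · rw [map_inv₀, hvg, inv_one]

/-- **WEAK APPROXIMATION, unit form**: if the targets `a i` are units of `V i` and the moduli
`c i` are nonzero non-units, then `g` is a unit of every `V i`. -/
theorem weakApprox_units {ι : Type*} [Finite ι] (V : ι → ValuationSubring E)
    (hinj : Function.Injective V) (hV : ∀ i, V i ≠ ⊤) (hP : ∀ i, IsPrincipalIdealRing (V i))
    (a : ι → E) (ha : ∀ i, a i ≠ 0 ∧ a i ∈ V i ∧ (a i)⁻¹ ∈ V i)
    (c : ι → E) (hc : ∀ i, c i ∈ (V i).nonunits) (hc0 : ∀ i, c i ≠ 0) :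
    ∃ g : E, g ≠ 0 ∧ ∀ i, g ∈ V i ∧ g⁻¹ ∈ V i ∧ (g - a i) / c i ∈ V i := by
  rcases isEmpty_or_nonempty ι with hι | ⟨⟨i₀⟩⟩
  · exact ⟨1, one_ne_zero, fun i => (hι.false i).elim⟩
  obtain ⟨g, hg⟩ := weakApprox_pid V hinj hV hP a c
  refine ⟨g, (wa_unit_of_congr (V i₀) (ha i₀).1 (ha i₀).2.1 (ha i₀).2.2 (hc i₀) (hc0 i₀)
    (hg i₀)).1, fun i => ?_⟩
  obtain ⟨-, h1, h2⟩ := wa_unit_of_congr (V i) (ha i).1 (ha i).2.1 (ha i).2.2 (hc i) (hc0 i) (hg i)
  exact ⟨h1, h2, hg i⟩

/-- **WEAK APPROXIMATION, ideal form**: `g - a i ∈ 𝔪_i ^ N` for all `i`. -/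
theorem weakApprox_pow {ι : Type*} [Finite ι] (V : ι → ValuationSubring E)
    (hinj : Function.Injective V) (hV : ∀ i, V i ≠ ⊤) (hP : ∀ i, IsPrincipalIdealRing (V i))
    (a : ι → E) (N : ℕ) :
    ∃ g : E, ∀ i, ∃ z : V i, z ∈ IsLocalRing.maximalIdeal (V i) ^ N ∧ (z : E) = g - a i := by
  have hϖ : ∀ i, ∃ ϖ : V i, Irreducible ϖ := fun i => by
    have := hP i
    have : IsDiscreteValuationRing (V i) := wa_isDVR (V i) (hV i)
    exact IsDiscreteValuationRing.exists_irreducible (V i)
  choose ϖ hϖ using hϖ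
  obtain ⟨g, hg⟩ := weakApprox_pid V hinj hV hP a (fun i => ((ϖ i : V i) : E) ^ N)
  refine ⟨g, fun i => ?_⟩
  have hϖ0 : ((ϖ i : V i) : E) ≠ 0 := fun h => (hϖ i).ne_zero (Subtype.ext h)
  refine ⟨ϖ i ^ N * ⟨_, hg i⟩, ?_, ?_⟩
  · have := hP i
    have : IsDiscreteValuationRing (V i) := wa_isDVR (V i) (hV i)
    rw [(hϖ i).maximalIdeal_eq, Ideal.span_singleton_pow]
    exact Ideal.mul_mem_right _ _ (Ideal.mem_span_singleton_self _)
  · have : (((ϖ i ^ N * ⟨_, hg i⟩ : V i)) : E)
        = ((ϖ i : V i) : E) ^ N * ((g - a i) / ((ϖ i : V i) : E) ^ N) := rfl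
    rw [this]
    field_simp

end Fermat.Agent.H18.SS2
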