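import Fermat.Agent.H18.SS2.Approx

/-!
# P-SS2, row SS2-A4 (part 2, abstract form): adjusting a local unit at the valuations whose
centre does not pass through the point (helper18)

Mathlib only.  `B ⊆ E₀` a subalgebra (in the application the chart ring `B(y)`), every element of
`E₀` has a denominator in `B`, `𝔪` a prime ideal of `B`, `p ∈ 𝔪` nonzero (in the application the
uniformiser `ϖ` of the base).  `W j` finitely many pairwise distinct rank-one valuation subrings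
of `E₀` containing `B` whose centre on `B` is NOT contained in `𝔪` (some `s ∈ B`, non-unit of
`W j`, `s ∉ 𝔪`).  For arbitrary targets `a j` and moduli `c j`:

  there is `e = b' / b` with `b, b' ∈ B ∖ 𝔪` (a unit of `B_𝔪`), `b (e - 1) ∈ p B`
  (`e ≡ 1 mod p B_𝔪`), and `e ≡ a j mod c j · W j` for all `j`.
-/

set_option autoImplicit false

namespace Fermat.Agent.H18.SS2

variable {A : Type*} [CommRing A] {E₀ : Type*} [Field E₀] [Algebra A E₀]

/-- **APPROXIMATION AWAY FROM A POINT** (abstract form). -/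
theorem approx_away (B : Subalgebra A E₀)
    (hden : ∀ z : E₀, ∃ d : B, d ≠ 0 ∧ (d : E₀) * z ∈ B)
    (𝔪 : Ideal B) (h𝔪 : 𝔪.IsPrime) (p : B) (hp0 : p ≠ 0) (hp : p ∈ 𝔪)
    {ι : Type*} [Finite ι] (W : ι → ValuationSubring E₀) (hinj : Function.Injective W)
    (hW : ∀ j, IsRankOneVS (W j))
    (hBW : ∀ j, ∀ b : B, (b : E₀) ∈ W j)
    (hcentre : ∀ j, ∃ s : B, (s : E₀) ∈ (W j).nonunits ∧ s ∉ 𝔪)
    (a c : ι → E₀) :
    ∃ e : E₀, (∀ j, (e - a j) / c j ∈ W j) ∧
      ∃ b b' : B, b ∉ 𝔪 ∧ b' ∉ 𝔪 ∧ (b : E₀) * e = b' ∧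
        ∃ d : B, (b : E₀) * (e - 1) = (p : E₀) * d := by
  classical
  have : Fintype ι := Fintype.ofFinite ι
  -- weak approximation among the `W j`
  obtain ⟨a₀, ha₀⟩ := weakApprox W hinj hW a c
  -- a denominator of `a₀`
  obtain ⟨d₀, hd₀, hd₀a⟩ := hden a₀
  set t : B := p * d₀ with ht
  have ht0 : t ≠ 0 := mul_ne_zero hp0 hd₀
  have htE0 : (t : E₀) ≠ 0 := fun h => ht0 (Subtype.ext h)
  have htm : t ∈ 𝔪 := 𝔪.mul_mem_right _ hp
  set ta : B := p * ⟨_, hd₀a⟩ with hta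
  have htam : ta ∈ 𝔪 := 𝔪.mul_mem_right _ hp
  have htaE : (ta : E₀) = (t : E₀) * a₀ := by
    show (p : E₀) * ((d₀ : E₀) * a₀) = (p : E₀) * (d₀ : E₀) * a₀
    ring
  -- the element `s`
  choose s hsW hsm using hcentre
  set S : B := ∏ j, s j with hS
  have hSm : ∀ n : ℕ, S ^ n ∉ 𝔪 := by
    intro n hn
    have h1 : S ∈ 𝔪 := h𝔪.mem_of_pow_mem n hn
    obtain ⟨j, -, hj⟩ := (h𝔪.prod_mem_iff).mp h1
    exact hsm j hj
  have hS0 : (S : E₀) ≠ 0 := by
    intro h
    have h1 : S = 0 := Subtype.ext h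
    have := hSm 1
    rw [pow_one, h1] at this
    exact this 𝔪.zero_mem
  have hSW : ∀ j, (W j).valuation (S : E₀) < 1 := by
    intro j
    have h1 : (S : E₀) = (s j : E₀) * ((∏ i ∈ Finset.univ.erase j, s i : B) : E₀) := by
      rw [hS, ← Finset.mul_prod_erase Finset.univ s (Finset.mem_univ j)]
      rfl
    rw [h1, map_mul]
    have h2 : (W j).valuation (s j : E₀) < 1 := (W j).mem_nonunits_iff.mp (hsW j)
    have h3 : (W j).valuation ((∏ i ∈ Finset.univ.erase j, s i : B) : E₀) ≤ 1 :=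
      ((W j).valuation_le_one_iff _).mpr (hBW j _)
    calc (W j).valuation (s j : E₀) * (W j).valuation ((∏ i ∈ Finset.univ.erase j, s i : B) : E₀)
        ≤ (W j).valuation (s j : E₀) * 1 := by gcongr
      _ = (W j).valuation (s j : E₀) := mul_one _
      _ < 1 := h2
  -- uniform exponent
  obtain ⟨n₁, hn₁⟩ := wa_exists_uniform (Finset.univ : Finset ι)
    (fun j n => (W j).valuation ((S : E₀) ^ n * (t : E₀)⁻¹) < 1)
    (fun j _ => (hW j).exists_pow_lt (hSW j) hS0 _)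
  obtain ⟨n₂, hn₂⟩ := wa_exists_uniform (Finset.univ : Finset ι)
    (fun j n => (W j).valuation ((S : E₀) ^ n * ((1 - a₀) / ((t : E₀) * c j))) < 1)
    (fun j _ => (hW j).exists_pow_lt (hSW j) hS0 _)
  set n := max n₁ n₂ with hn
  set r : B := S ^ n with hr
  have hrm : r ∉ 𝔪 := hSm n
  have hbm : t + r ∉ 𝔪 := fun h => hrm (by
    have := 𝔪.sub_mem h htm
    simpa using this)
  have hb'm : ta + r ∉ 𝔪 := fun h => hrm (by
    have := 𝔪.sub_mem h htam
    simpa using this)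
  have hb0 : ((t + r : B) : E₀) ≠ 0 := by
    intro h
    have h1 : t + r = 0 := Subtype.ext h
    rw [h1] at hbm
    exact hbm 𝔪.zero_mem
  have hbE : ((t + r : B) : E₀) = (t : E₀) + (S : E₀) ^ n := rfl
  have hb'E : ((ta + r : B) : E₀) = (t : E₀) * a₀ + (S : E₀) ^ n := by
    rw [← htaE]
    rfl
  rw [hbE] at hb0
  refine ⟨((t : E₀) * a₀ + (S : E₀) ^ n) / ((t : E₀) + (S : E₀) ^ n), fun j => ?_,
    t + r, ta + r, hbm, hb'm, ?_, ⟨_, hd₀a⟩ - d₀, ?_⟩
  · -- at `W j`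
    have h1 : (W j).valuation ((S : E₀) ^ n * (t : E₀)⁻¹) < 1 :=
      hn₁ j (Finset.mem_univ j) n (le_max_left _ _)
    have h2 : (W j).valuation ((S : E₀) ^ n * ((1 - a₀) / ((t : E₀) * c j))) < 1 :=
      hn₂ j (Finset.mem_univ j) n (le_max_right _ _)
    have h3 : (W j).valuation (1 + (S : E₀) ^ n * (t : E₀)⁻¹) = 1 :=
      Valuation.map_one_add_of_lt _ h1
    have h4 : (((t : E₀) * a₀ + (S : E₀) ^ n) / ((t : E₀) + (S : E₀) ^ n) - a j) / c j
        = (S : E₀) ^ n * ((1 - a₀) / ((t : E₀) * c j)) / (1 + (S : E₀) ^ n * (t : E₀)⁻¹)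
          + (a₀ - a j) / c j := by
      have h5 : 1 + (S : E₀) ^ n * (t : E₀)⁻¹ = ((t : E₀) + (S : E₀) ^ n) / (t : E₀) := by
        field_simp
      rw [h5]
      by_cases hc : c j = 0
      · simp [hc]
      · field_simp
        ring
    rw [h4]
    refine (W j).add_mem _ _ ?_ (ha₀ j)
    rw [← (W j).valuation_le_one_iff, map_div₀, h3, div_one]
    exact h2.le
  · rw [hbE, hb'E]
    field_simp
  · have h6 : ((⟨_, hd₀a⟩ - d₀ : B) : E₀) = (d₀ : E₀) * a₀ - (d₀ : E₀) := rfl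
    have h7 : (t : E₀) = (p : E₀) * (d₀ : E₀) := rfl
    rw [hbE, h6, h7]
    rw [h7] at hb0
    field_simp
    ring

end Fermat.Agent.H18.SS2
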