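import Fermat.Agent.H18.SS2.ApproxAway
import Fermat.Agent.H22.ES.KLSetting

/-!
# P-SS2, row SS2-A4 (part 2, chart form) (helper18)

Chart language of `Fermat.Agent.H22.KL`: `B = chartClosure A E₀ y`, `𝔪` a prime (maximal) ideal
of `B` containing `ϖ`.  `W j` finitely many pairwise distinct discrete valuation subrings of `E₀`
containing `B` whose centre is NOT contained in `𝔪`.

* `chart_exists_den` : denominators, from `E₀` finite over `K₀(y)`.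
* `chartApprox` : for arbitrary targets `a j` and moduli `c j` there is `e ≠ 0`, a unit of `B_𝔪`
  (`b e ∈ B`, `b' e⁻¹ ∈ B` with `b, b' ∉ 𝔪`), `e ≡ 1 mod ϖ B_𝔪` (`b (e - 1) ∈ ϖ B`), and
  `e ≡ a j mod c j · W j` for all `j`.
* `chartApprox_pow` : the same with `c j = ϖ ^ N`; if `a j` is a unit of `W j`, `N ≥ 1` and `ϖ` is
  a non-unit of `W j`, then `e` is a unit of `W j`.
* `chart_sub_one_div_mem` : `e ≡ 1 mod ϖ B_𝔪` implies `(e - 1) / ϖ ∈ V` for every valuation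
  subring `V ⊇ B` through `𝔪` (every `s ∈ B` which is a non-unit of `V` lies in `𝔪`).
-/

set_option autoImplicit false

namespace Fermat.Agent.H18.SS2

open Fermat.Agent.H22.KL
open Fermat.Agent.H67.KLConn (PiDvd)

variable (A : Type) [CommRing A] (E₀ : Type) [Field E₀] [Algebra A E₀]

/-- the inclusion `A[y] → K₀(y)` -/
def chartIncl (y : E₀) : ↥(chartRing A E₀ y) →+* ↥(chartField A E₀ y) where
  toFun r := ⟨r, Subfield.subset_closure r.2⟩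
  map_one' := rfl
  map_mul' _ _ := rfl
  map_zero' := rfl
  map_add' _ _ := rfl

/-- **Denominators**: if `E₀` is finite over `K₀(y)`, every element of `E₀` has a nonzero
denominator in `A[y] ⊆ B(y)`. -/
theorem chart_exists_den (y : E₀)
    (hfd : ∃ n : ℕ, Nonempty (Module.Basis (Fin n) (chartField A E₀ y) E₀)) (z : E₀) :
    ∃ d : chartClosure A E₀ y, d ≠ 0 ∧ (d : E₀) * z ∈ chartClosure A E₀ y := by
  obtain ⟨n, ⟨b⟩⟩ := hfd
  have hfin : Module.Finite ↥(chartField A E₀ y) E₀ := Module.Finite.of_basis b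
  have halgK : IsAlgebraic ↥(chartField A E₀ y) z := Algebra.IsAlgebraic.isAlgebraic z
  let _ : Algebra ↥(chartRing A E₀ y) ↥(chartField A E₀ y) := (chartIncl A E₀ y).toAlgebra
  have htower : IsScalarTower ↥(chartRing A E₀ y) ↥(chartField A E₀ y) E₀ :=
    IsScalarTower.of_algebraMap_eq (fun _ => rfl)
  have hfs : FaithfulSMul ↥(chartRing A E₀ y) ↥(chartField A E₀ y) := by
    rw [faithfulSMul_iff_algebraMap_injective]
    intro r s h
    have h' : ((algebraMap ↥(chartRing A E₀ y) ↥(chartField A E₀ y) r : ↥(chartField A E₀ y)) : E₀)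
        = ((algebraMap ↥(chartRing A E₀ y) ↥(chartField A E₀ y) s : ↥(chartField A E₀ y)) : E₀) :=
      congrArg Subtype.val h
    exact Subtype.ext h'
  have hfrac : IsFractionRing ↥(chartRing A E₀ y) ↥(chartField A E₀ y) := by
    refine IsFractionRing.of_field (R := ↥(chartRing A E₀ y)) (K := ↥(chartField A E₀ y))
      fun w => ?_
    have hw := w.2
    have hw' : (w : E₀) ∈ Subfield.closure ((chartRing A E₀ y : Set E₀)) := hw
    rw [Subfield.mem_closure_iff] at hw'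
    obtain ⟨u, hu, v, hv, huv⟩ := hw'
    have hcl : Subring.closure ((chartRing A E₀ y : Set E₀)) = (chartRing A E₀ y).toSubring :=
      Subring.closure_eq (chartRing A E₀ y).toSubring
    rw [hcl] at hu hv
    refine ⟨⟨u, hu⟩, ⟨v, hv⟩, Subtype.ext ?_⟩
    rw [← huv]
    rfl
  have halgR : IsAlgebraic ↥(chartRing A E₀ y) z :=
    (IsFractionRing.isAlgebraic_iff ↥(chartRing A E₀ y) ↥(chartField A E₀ y) E₀).mpr halgK
  obtain ⟨d, hd0, hd⟩ := halgR.exists_integral_multiple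
  have hdB : (d : E₀) ∈ chartClosure A E₀ y :=
    (isIntegral_algebraMap (R := ↥(chartRing A E₀ y)) (A := E₀) (x := d))
  refine ⟨⟨d, hdB⟩, ?_, ?_⟩
  · intro h
    have h' : ((⟨(d : E₀), hdB⟩ : chartClosure A E₀ y) : E₀) = 0 := by rw [h]; rfl
    exact hd0 (Subtype.ext h')
  · exact hd

variable {A E₀}

/-- `e ≡ 1 mod ϖ B_𝔪` gives `(e - 1) / ϖ ∈ V` for every valuation subring `V ⊇ B` through `𝔪`. -/
theorem chart_sub_one_div_mem {ϖ : A} {y : E₀} {𝔪 : Ideal (chartClosure A E₀ y)}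
    (V : ValuationSubring E₀) (hBV : ∀ b ∈ chartClosure A E₀ y, b ∈ V)
    (hthrough : ∀ s : chartClosure A E₀ y, (s : E₀) ∈ V.nonunits → s ∈ 𝔪) {e : E₀}
    (he : ∃ b : chartClosure A E₀ y, b ∉ 𝔪 ∧
      PiDvd ϖ (chartClosure A E₀ y) 1 ((b : E₀) * (e - 1))) :
    (e - 1) / algebraMap A E₀ ϖ ∈ V := by
  obtain ⟨b, hb, r, hr, hbr⟩ := he
  rw [pow_one, Algebra.smul_def] at hbr
  by_cases hϖ : algebraMap A E₀ ϖ = 0
  · rw [hϖ, div_zero]
    exact V.zero_mem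
  have hbV : (b : E₀) ∉ V.nonunits := fun h => hb (hthrough b h)
  have hb0 : (b : E₀) ≠ 0 := fun h => hbV (by rw [h]; exact V.nonunits.zero_mem)
  have hbi : (b : E₀)⁻¹ ∈ V := by
    by_contra h
    exact hbV (V.mem_nonunits_iff_or.mpr (Or.inr h))
  have h1 : (e - 1) / algebraMap A E₀ ϖ = (b : E₀)⁻¹ * r := by
    field_simp
    rw [mul_comm, hbr]
  rw [h1]
  exact V.mul_mem _ _ hbi (hBV r hr)

/-- **SS2-A4 (2), chart form with arbitrary moduli.** -/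
theorem chartApprox (ϖ : A) (hϖ0 : algebraMap A E₀ ϖ ≠ 0) (y : E₀)
    (hfd : ∃ n : ℕ, Nonempty (Module.Basis (Fin n) (chartField A E₀ y) E₀))
    (𝔪 : Ideal (chartClosure A E₀ y)) (h𝔪 : 𝔪.IsPrime)
    (hϖ𝔪 : algebraMap A (chartClosure A E₀ y) ϖ ∈ 𝔪)
    {ι : Type*} [Finite ι] (W : ι → ValuationSubring E₀) (hinj : Function.Injective W)
    (hW : ∀ j, W j ≠ ⊤) (hWP : ∀ j, IsPrincipalIdealRing (W j))
    (hBW : ∀ j, ∀ b ∈ chartClosure A E₀ y, b ∈ W j)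
    (hcentre : ∀ j, ∃ s : chartClosure A E₀ y, (s : E₀) ∈ (W j).nonunits ∧ s ∉ 𝔪)
    (a c : ι → E₀) :
    ∃ e : E₀, e ≠ 0 ∧ (∀ j, (e - a j) / c j ∈ W j) ∧
      (∃ b : chartClosure A E₀ y, b ∉ 𝔪 ∧ (b : E₀) * e ∈ chartClosure A E₀ y) ∧
      (∃ b : chartClosure A E₀ y, b ∉ 𝔪 ∧ (b : E₀) * e⁻¹ ∈ chartClosure A E₀ y) ∧
      (∃ b : chartClosure A E₀ y, b ∉ 𝔪 ∧
        PiDvd ϖ (chartClosure A E₀ y) 1 ((b : E₀) * (e - 1))) := by
  have hp0 : algebraMap A (chartClosure A E₀ y) ϖ ≠ 0 := by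
    intro h
    apply hϖ0
    have := congrArg Subtype.val h
    exact this
  obtain ⟨e, he, b, b', hb, hb', hbe, d, hd⟩ := approx_away (chartClosure A E₀ y)
    (chart_exists_den A E₀ y hfd) 𝔪 h𝔪 (algebraMap A (chartClosure A E₀ y) ϖ) hp0 hϖ𝔪 W hinj
    (fun j => have := hWP j; isRankOneVS_of_pid (W j) (hW j))
    (fun j b => hBW j b b.2) hcentre a c
  have hb0 : (b : E₀) ≠ 0 := fun h => hb (by
    have : b = 0 := Subtype.ext h
    rw [this]; exact 𝔪.zero_mem)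
  have hb'0 : (b' : E₀) ≠ 0 := fun h => hb' (by
    have : b' = 0 := Subtype.ext h
    rw [this]; exact 𝔪.zero_mem)
  have he0 : e ≠ 0 := by
    rintro rfl
    rw [mul_zero] at hbe
    exact hb'0 hbe.symm
  refine ⟨e, he0, he, ⟨b, hb, by rw [hbe]; exact b'.2⟩, ⟨b', hb', ?_⟩, ⟨b, hb, d, d.2, ?_⟩⟩
  · have : (b' : E₀) * e⁻¹ = b := by
      rw [← hbe]
      field_simp
    rw [this]
    exact b.2
  · rw [pow_one, Algebra.smul_def, hd]
    rfl

/-- **SS2-A4 (2), chart form**: moduli `ϖ ^ N`; units stay units. -/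
theorem chartApprox_pow (ϖ : A) (hϖ0 : algebraMap A E₀ ϖ ≠ 0) (y : E₀)
    (hfd : ∃ n : ℕ, Nonempty (Module.Basis (Fin n) (chartField A E₀ y) E₀))
    (𝔪 : Ideal (chartClosure A E₀ y)) (h𝔪 : 𝔪.IsPrime)
    (hϖ𝔪 : algebraMap A (chartClosure A E₀ y) ϖ ∈ 𝔪)
    {ι : Type*} [Finite ι] (W : ι → ValuationSubring E₀) (hinj : Function.Injective W)
    (hW : ∀ j, W j ≠ ⊤) (hWP : ∀ j, IsPrincipalIdealRing (W j))
    (hBW : ∀ j, ∀ b ∈ chartClosure A E₀ y, b ∈ W j)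
    (hcentre : ∀ j, ∃ s : chartClosure A E₀ y, (s : E₀) ∈ (W j).nonunits ∧ s ∉ 𝔪)
    (a : ι → E₀) (N : ℕ) :
    ∃ e : E₀, e ≠ 0 ∧ (∀ j, (e - a j) / algebraMap A E₀ ϖ ^ N ∈ W j) ∧
      (∀ j, 0 < N → algebraMap A E₀ ϖ ∈ (W j).nonunits →
        a j ≠ 0 → a j ∈ W j → (a j)⁻¹ ∈ W j → e ∈ W j ∧ e⁻¹ ∈ W j) ∧
      (∃ b : chartClosure A E₀ y, b ∉ 𝔪 ∧ (b : E₀) * e ∈ chartClosure A E₀ y) ∧
      (∃ b : chartClosure A E₀ y, b ∉ 𝔪 ∧ (b : E₀) * e⁻¹ ∈ chartClosure A E₀ y) ∧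
      (∃ b : chartClosure A E₀ y, b ∉ 𝔪 ∧
        PiDvd ϖ (chartClosure A E₀ y) 1 ((b : E₀) * (e - 1))) := by
  obtain ⟨e, he0, he, h1, h2, h3⟩ := chartApprox ϖ hϖ0 y hfd 𝔪 h𝔪 hϖ𝔪 W hinj hW hWP hBW hcentre
    a (fun _ => algebraMap A E₀ ϖ ^ N)
  refine ⟨e, he0, he, fun j hN hϖW ha0 ha hai => ?_, h1, h2, h3⟩
  have hc : algebraMap A E₀ ϖ ^ N ∈ (W j).nonunits := by
    rw [(W j).mem_nonunits_iff, map_pow]
    exact pow_lt_one₀ zero_le ((W j).mem_nonunits_iff.mp hϖW) (Nat.pos_iff_ne_zero.mp hN)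
  exact (wa_unit_of_congr (W j) ha0 ha hai hc (pow_ne_zero _ hϖ0) (he j)).2

end Fermat.Agent.H18.SS2
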