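import Mathlib
import Fermat.Agent.H18.SS2.Approx

/-!
# P-SS2, row SS2-A5 EISDVR: an Eisenstein extension of a DVR is a DVR (helper18)

Mathlib only.  `D` a discrete valuation ring, `L` a field containing `D`, `P ∈ D[X]` monic and
Eisenstein at the maximal ideal of `D`, `z ∈ L` a root of `P`, `n = deg P`.  No separability or
characteristic assumption (in the application `D` has characteristic `q` and `P = X ^ q - x`).

* `eis_isDVR` : `D[z] = Algebra.adjoin D {z}` is a discrete valuation ring;
* `eis_maximalIdeal`, `eis_irreducible_gen` : its maximal ideal is generated by `z`;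
* `eis_associated` : a uniformiser of `D` is `z ^ n` times a unit of `D[z]` (total ramification);
* `eis_residue` : every element of `D[z]` is congruent to an element of `D` modulo `z`
  (the residue field does not grow);
* `eis_irreducible_map`, `eis_minpoly`, `eis_finrank` : `P` is the minimal polynomial of `z` over
  the fraction field `F` of `D`, `[F(z) : F] = n`;
* `eis_valuationSubring` : if `L` is the fraction field of `D[z]`, then `D[z]` is a discrete
  valuation subring of `L` with uniformiser `z` (chart language of `H22.KL`);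
* `dvr_subalgebra_eq_bot_or_top`, `dvr_subring_eq_or_eq_top` : a discrete valuation ring is a
  maximal proper subring of its fraction field.
-/

set_option autoImplicit false
set_option linter.unusedSectionVars false

namespace Fermat.Agent.H18.SS2

open Polynomial IsLocalRing

section Eis

variable {D : Type*} [CommRing D] [IsDomain D] [IsDiscreteValuationRing D]
  {L : Type*} [Field L] [Algebra D L]

/-- the generator `z` as an element of `D[z]` -/
def eisGen (z : L) : ↥(Algebra.adjoin D ({z} : Set L)) := ⟨z, Algebra.subset_adjoin rfl⟩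

@[simp] theorem eisGen_coe (z : L) : ((eisGen (D := D) z : ↥(Algebra.adjoin D ({z} : Set L))) : L) = z :=
  rfl

variable (hinj : Function.Injective (algebraMap D L)) {P : D[X]} (hP : P.Monic)
  (hE : P.IsEisensteinAt (maximalIdeal D)) {z : L} (hz : aeval z P = 0)

include hP hz in
theorem eis_isIntegral : IsIntegral D z := ⟨P, hP, by rwa [← aeval_def]⟩

include hP hz in
theorem eis_algebra_isIntegral : Algebra.IsIntegral D ↥(Algebra.adjoin D ({z} : Set L)) :=
  Algebra.IsIntegral.adjoin (fun x hx => by
    rw [Set.mem_singleton_iff] at hx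
    rw [hx]
    exact eis_isIntegral hP hz)

include hP hz in
theorem eis_isNoetherianRing : IsNoetherianRing ↥(Algebra.adjoin D ({z} : Set L)) := by
  have hfg : (Algebra.adjoin D ({z} : Set L)).toSubmodule.FG :=
    (eis_isIntegral hP hz).fg_adjoin_singleton
  have hfin : Module.Finite D ↥(Algebra.adjoin D ({z} : Set L)) :=
    Module.Finite.of_fg hfg
  have hN : IsNoetherian D ↥(Algebra.adjoin D ({z} : Set L)) :=
    isNoetherian_of_isNoetherianRing_of_finite D _
  exact isNoetherian_of_tower D hN

include hP hz in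
theorem eis_natDegree_pos : 0 < P.natDegree := by
  rcases Nat.eq_zero_or_pos P.natDegree with h | h
  · exfalso
    have h1 : P = 1 := by
      have := hP.as_sum
      rw [h] at this
      simpa using this
    rw [h1] at hz
    simp at hz
  · exact h

include hinj hE hz in
theorem eis_gen_ne_zero : z ≠ 0 := by
  rintro rfl
  have h0 : aeval (0 : L) P = algebraMap D L (P.coeff 0) := by
    rw [aeval_def, eval₂_at_zero]
  rw [h0] at hz
  have h1 : P.coeff 0 = 0 := hinj (by rw [hz, map_zero])
  exact hE.notMem (by rw [h1]; exact Ideal.zero_mem _)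

include hP hE hz in
/-- The basic relation: `z ^ n = ϖ * w` in `D[z]` with `w = -b₀ - z * c`, `b₀` a unit of `D`. -/
theorem eis_relation (ϖ : D) (hϖ : Irreducible ϖ) :
    ∃ (w c : ↥(Algebra.adjoin D ({z} : Set L))) (b₀ : D), IsUnit b₀ ∧
      eisGen (D := D) z ^ P.natDegree = algebraMap D _ ϖ * w ∧
      w = -algebraMap D _ b₀ - eisGen (D := D) z * c := by
  classical
  have hn : 0 < P.natDegree := eis_natDegree_pos hP hz
  have hm : maximalIdeal D = Ideal.span {ϖ} := hϖ.maximalIdeal_eq
  -- coefficients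
  have hb : ∀ i : ℕ, ∃ b : D, i < P.natDegree → P.coeff i = ϖ * b := by
    intro i
    by_cases hi : i < P.natDegree
    · have := hE.mem hi
      rw [hm, Ideal.mem_span_singleton] at this
      obtain ⟨b, hb⟩ := this
      exact ⟨b, fun _ => hb⟩
    · exact ⟨0, fun h => absurd h hi⟩
  choose b hb using hb
  have hb0 : IsUnit (b 0) := by
    by_contra hnu
    have h1 : b 0 ∈ maximalIdeal D := (IsLocalRing.mem_maximalIdeal _).mpr hnu
    rw [hm, Ideal.mem_span_singleton] at h1
    obtain ⟨c, hc⟩ := h1
    apply hE.notMem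
    rw [hb 0 hn, hc, hm, Ideal.span_singleton_pow, Ideal.mem_span_singleton]
    exact ⟨c, by ring⟩
  obtain ⟨m, hm'⟩ : ∃ m, P.natDegree = m + 1 := ⟨P.natDegree - 1, by omega⟩
  refine ⟨-∑ i ∈ Finset.range P.natDegree, algebraMap D _ (b i) * eisGen (D := D) z ^ i,
    ∑ i ∈ Finset.range m, algebraMap D _ (b (i + 1)) * eisGen (D := D) z ^ i, b 0, hb0, ?_, ?_⟩
  · apply Subtype.ext
    have h1 : aeval z P = z ^ P.natDegree
        + ∑ i ∈ Finset.range P.natDegree, algebraMap D L (P.coeff i) * z ^ i := by
      conv_lhs => rw [hP.as_sum]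
      simp only [map_add, map_pow, aeval_X, map_sum, map_mul, aeval_C]
    rw [hz] at h1
    have h2 : z ^ P.natDegree
        = -∑ i ∈ Finset.range P.natDegree, algebraMap D L (P.coeff i) * z ^ i :=
      eq_neg_of_add_eq_zero_left h1.symm
    push_cast
    rw [eisGen_coe, h2, mul_neg, neg_inj, Finset.mul_sum]
    refine Finset.sum_congr rfl (fun i hi => ?_)
    rw [hb i (Finset.mem_range.mp hi), map_mul]
    ring
  · rw [hm', Finset.sum_range_succ', pow_zero, mul_one, Finset.mul_sum]
    have : ∑ i ∈ Finset.range m, algebraMap D ↥(Algebra.adjoin D ({z} : Set L)) (b (i + 1))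
          * eisGen (D := D) z ^ (i + 1)
        = ∑ i ∈ Finset.range m, eisGen (D := D) z
          * (algebraMap D ↥(Algebra.adjoin D ({z} : Set L)) (b (i + 1)) * eisGen (D := D) z ^ i) :=
      Finset.sum_congr rfl (fun i _ => by ring)
    rw [this]
    ring

include hP hz in
/-- Every maximal ideal of `D[z]` contains the uniformiser of `D`. -/
theorem eis_unif_mem_of_isMaximal (ϖ : D) (hϖ : Irreducible ϖ)
    (M : Ideal ↥(Algebra.adjoin D ({z} : Set L))) (hM : M.IsMaximal) :
    algebraMap D _ ϖ ∈ M := by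
  have hint : Algebra.IsIntegral D ↥(Algebra.adjoin D ({z} : Set L)) :=
    eis_algebra_isIntegral hP hz
  have h1 : (M.comap (algebraMap D ↥(Algebra.adjoin D ({z} : Set L)))).IsMaximal :=
    Ideal.isMaximal_comap_of_isIntegral_of_isMaximal M
  have h2 : M.comap (algebraMap D ↥(Algebra.adjoin D ({z} : Set L))) = maximalIdeal D :=
    IsLocalRing.eq_maximalIdeal h1
  have h3 : ϖ ∈ maximalIdeal D := by
    rw [hϖ.maximalIdeal_eq]
    exact Ideal.mem_span_singleton_self ϖ
  rw [← h2] at h3
  exact h3

include hP hE hz in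
/-- Every maximal ideal of `D[z]` contains `z`. -/
theorem eis_gen_mem_of_isMaximal
    (M : Ideal ↥(Algebra.adjoin D ({z} : Set L))) (hM : M.IsMaximal) :
    eisGen (D := D) z ∈ M := by
  obtain ⟨ϖ, hϖ⟩ := IsDiscreteValuationRing.exists_irreducible D
  obtain ⟨w, c, b₀, hb₀, hrel, -⟩ := eis_relation hP hE hz ϖ hϖ
  have h1 : eisGen (D := D) z ^ P.natDegree ∈ M := by
    rw [hrel]
    exact M.mul_mem_right _ (eis_unif_mem_of_isMaximal hP hz ϖ hϖ M hM)
  exact hM.isPrime.mem_of_pow_mem _ h1

/-- Every element of `D[z]` is congruent to a constant modulo `z`. -/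
theorem eis_residue' (r : ↥(Algebra.adjoin D ({z} : Set L))) :
    ∃ (d : D) (c : ↥(Algebra.adjoin D ({z} : Set L))),
      r = algebraMap D _ d + eisGen (D := D) z * c := by
  have hr : (r : L) ∈ (aeval (R := D) z).range := by
    rw [← Algebra.adjoin_singleton_eq_range_aeval]
    exact r.2
  obtain ⟨Q, hQ⟩ := hr
  have hc : aeval z Q.divX ∈ Algebra.adjoin D ({z} : Set L) := by
    rw [Algebra.adjoin_singleton_eq_range_aeval]
    exact ⟨Q.divX, rfl⟩
  refine ⟨Q.coeff 0, ⟨_, hc⟩, Subtype.ext ?_⟩
  push_cast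
  rw [eisGen_coe]
  have h1 : aeval z Q = aeval z (Q.divX * X + C (Q.coeff 0)) := by rw [divX_mul_X_add]
  have h2 : (r : L) = aeval z Q := hQ.symm
  rw [h2, h1, map_add, map_mul, aeval_X, aeval_C]
  ring

include hP hE hz in
/-- The unique maximal ideal of `D[z]` is `(z)`. -/
theorem eis_isMaximal_iff (M : Ideal ↥(Algebra.adjoin D ({z} : Set L))) :
    M.IsMaximal ↔ M = Ideal.span {eisGen (D := D) z} := by
  obtain ⟨ϖ, hϖ⟩ := IsDiscreteValuationRing.exists_irreducible D
  obtain ⟨w, c, b₀, hb₀, hrel, hw⟩ := eis_relation hP hE hz ϖ hϖ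
  have hn : 0 < P.natDegree := eis_natDegree_pos hP hz
  -- `w` is a unit
  have hwu : IsUnit w := by
    by_contra hnu
    obtain ⟨M', hM', hwM'⟩ := exists_max_ideal_of_mem_nonunits hnu
    have hzM' := eis_gen_mem_of_isMaximal hP hE hz M' hM'
    have h1 : algebraMap D ↥(Algebra.adjoin D ({z} : Set L)) b₀ ∈ M' := by
      have h2 : algebraMap D ↥(Algebra.adjoin D ({z} : Set L)) b₀
          = -w - eisGen (D := D) z * c := by rw [hw]; ring
      rw [h2]
      exact M'.sub_mem (M'.neg_mem hwM') (M'.mul_mem_right _ hzM')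
    exact hM'.ne_top (Ideal.eq_top_of_isUnit_mem _ h1 (hb₀.map _))
  -- `ϖ ∈ (z)`
  have hϖz : algebraMap D ↥(Algebra.adjoin D ({z} : Set L)) ϖ
      ∈ Ideal.span {eisGen (D := D) z} := by
    obtain ⟨u, rfl⟩ := hwu
    have h1 : algebraMap D ↥(Algebra.adjoin D ({z} : Set L)) ϖ
        = eisGen (D := D) z ^ P.natDegree * ((u⁻¹ : (↥(Algebra.adjoin D ({z} : Set L)))ˣ) : _) := by
      rw [hrel, mul_assoc, Units.mul_inv, mul_one]
    rw [h1]
    refine Ideal.mul_mem_right _ _ ?_
    obtain ⟨k, hk⟩ : ∃ k, P.natDegree = k + 1 := ⟨P.natDegree - 1, by omega⟩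
    rw [hk, pow_succ]
    exact Ideal.mul_mem_left _ _ (Ideal.mem_span_singleton_self _)
  -- maximal ideals
  have hmax : ∀ M : Ideal ↥(Algebra.adjoin D ({z} : Set L)), M.IsMaximal →
      M = Ideal.span {eisGen (D := D) z} := by
    intro M hM
    apply le_antisymm
    · intro r hr
      obtain ⟨d, c', hdc⟩ := eis_residue' r
      have hzM := eis_gen_mem_of_isMaximal hP hE hz M hM
      have hdM : algebraMap D ↥(Algebra.adjoin D ({z} : Set L)) d ∈ M := by
        have : algebraMap D ↥(Algebra.adjoin D ({z} : Set L)) d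
            = r - eisGen (D := D) z * c' := by rw [hdc]; ring
        rw [this]
        exact M.sub_mem hr (M.mul_mem_right _ hzM)
      have hd : d ∈ maximalIdeal D := by
        rw [IsLocalRing.mem_maximalIdeal]
        intro hdu
        exact hM.ne_top (Ideal.eq_top_of_isUnit_mem _ hdM (hdu.map _))
      rw [hϖ.maximalIdeal_eq, Ideal.mem_span_singleton] at hd
      obtain ⟨d', rfl⟩ := hd
      rw [hdc, map_mul]
      exact Ideal.add_mem _ (Ideal.mul_mem_right _ _ hϖz)
        (Ideal.mul_mem_right _ _ (Ideal.mem_span_singleton_self _))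
    · rw [Ideal.span_singleton_le_iff_mem]
      exact eis_gen_mem_of_isMaximal hP hE hz M hM
  constructor
  · exact hmax M
  · rintro rfl
    obtain ⟨M, hM⟩ := Ideal.exists_maximal ↥(Algebra.adjoin D ({z} : Set L))
    rw [← hmax M hM]
    exact hM

include hP hE hz in
/-- `D[z]` is a local ring. -/
theorem eis_isLocalRing : IsLocalRing ↥(Algebra.adjoin D ({z} : Set L)) :=
  IsLocalRing.of_unique_max_ideal ⟨Ideal.span {eisGen (D := D) z},
    (eis_isMaximal_iff hP hE hz _).mpr rfl, fun M hM => (eis_isMaximal_iff hP hE hz M).mp hM⟩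

include hP hE hz in
/-- The maximal ideal of `D[z]` is `(z)`. -/
theorem eis_maximalIdeal [IsLocalRing ↥(Algebra.adjoin D ({z} : Set L))] :
    maximalIdeal ↥(Algebra.adjoin D ({z} : Set L)) = Ideal.span {eisGen (D := D) z} :=
  (eis_isMaximal_iff hP hE hz _).mp (IsLocalRing.maximalIdeal.isMaximal _)

include hinj hP hE hz in
/-- **EISDVR**: `D[z]` is a discrete valuation ring. -/
theorem eis_isDVR : IsDiscreteValuationRing ↥(Algebra.adjoin D ({z} : Set L)) := by
  have hloc : IsLocalRing ↥(Algebra.adjoin D ({z} : Set L)) := eis_isLocalRing hP hE hz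
  have hnoe : IsNoetherianRing ↥(Algebra.adjoin D ({z} : Set L)) := eis_isNoetherianRing hP hz
  have hmax := eis_maximalIdeal hP hE hz
  have hnf : ¬ IsField ↥(Algebra.adjoin D ({z} : Set L)) := by
    rw [IsLocalRing.isField_iff_maximalIdeal_eq, hmax, Ideal.span_singleton_eq_bot]
    intro h
    exact eis_gen_ne_zero hinj hE hz (congrArg Subtype.val h)
  refine ((IsDiscreteValuationRing.TFAE _ hnf).out 4 0).mp ?_
  rw [hmax]
  exact ⟨⟨_, rfl⟩⟩

include hP hE hz in
/-- `z` is a uniformiser of `D[z]`. -/
theorem eis_irreducible_gen [IsDiscreteValuationRing ↥(Algebra.adjoin D ({z} : Set L))] :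
    Irreducible (eisGen (D := D) z) :=
  (IsDiscreteValuationRing.irreducible_iff_uniformizer _).mpr (eis_maximalIdeal hP hE hz)

include hP hE hz in
/-- Total ramification: a uniformiser of `D` is `z ^ n` times a unit of `D[z]`. -/
theorem eis_associated (ϖ : D) (hϖ : Irreducible ϖ) :
    Associated (eisGen (D := D) z ^ P.natDegree)
      (algebraMap D ↥(Algebra.adjoin D ({z} : Set L)) ϖ) := by
  obtain ⟨w, c, b₀, hb₀, hrel, hw⟩ := eis_relation hP hE hz ϖ hϖ
  have hloc : IsLocalRing ↥(Algebra.adjoin D ({z} : Set L)) := eis_isLocalRing hP hE hz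
  have hwu : IsUnit w := by
    by_contra hnu
    have hwm : w ∈ maximalIdeal ↥(Algebra.adjoin D ({z} : Set L)) :=
      (IsLocalRing.mem_maximalIdeal _).mpr hnu
    have hzm : eisGen (D := D) z ∈ maximalIdeal ↥(Algebra.adjoin D ({z} : Set L)) := by
      rw [eis_maximalIdeal hP hE hz]
      exact Ideal.mem_span_singleton_self _
    have h1 : algebraMap D ↥(Algebra.adjoin D ({z} : Set L)) b₀
        ∈ maximalIdeal ↥(Algebra.adjoin D ({z} : Set L)) := by
      have h2 : algebraMap D ↥(Algebra.adjoin D ({z} : Set L)) b₀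
          = -w - eisGen (D := D) z * c := by rw [hw]; ring
      rw [h2]
      exact Ideal.sub_mem _ (neg_mem hwm) (Ideal.mul_mem_right _ _ hzm)
    exact (IsLocalRing.mem_maximalIdeal _).mp h1 (hb₀.map _)
  obtain ⟨u, rfl⟩ := hwu
  exact ⟨u⁻¹, by rw [hrel, mul_assoc, Units.mul_inv, mul_one]⟩

/-- The residue field does not grow: every element of `D[z]` is congruent to an element of `D`
modulo `z`. -/
theorem eis_residue (r : ↥(Algebra.adjoin D ({z} : Set L))) :
    ∃ d : D, r - algebraMap D _ d ∈ Ideal.span {eisGen (D := D) z} := by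
  obtain ⟨d, c, h⟩ := eis_residue' r
  refine ⟨d, ?_⟩
  rw [h, add_sub_cancel_left]
  exact Ideal.mul_mem_right _ _ (Ideal.mem_span_singleton_self _)

section Degree

variable (F : Type*) [Field F] [Algebra D F] [IsFractionRing D F]

include hP hE hz in
/-- An Eisenstein polynomial over `D` is irreducible over the fraction field. -/
theorem eis_irreducible_map : Irreducible (P.map (algebraMap D F)) := by
  have h1 : Irreducible P :=
    hE.irreducible (IsLocalRing.maximalIdeal.isMaximal D).isPrime hP.isPrimitive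
      (eis_natDegree_pos hP hz)
  exact (hP.irreducible_iff_irreducible_map_fraction_map (K := F)).mp h1

variable [Algebra F L] [IsScalarTower D F L]

include hP hE hz in
/-- `P` is the minimal polynomial of `z` over the fraction field. -/
theorem eis_minpoly : minpoly F z = P.map (algebraMap D F) := by
  refine (minpoly.eq_of_irreducible_of_monic (eis_irreducible_map hP hE hz F) ?_
    (hP.map _)).symm
  rw [aeval_map_algebraMap]
  exact hz

include hP hE hz in
/-- `[F(z) : F] = deg P`. -/
theorem eis_finrank : Module.finrank F (IntermediateField.adjoin F ({z} : Set L)) = P.natDegree := by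
  have hint : IsIntegral F z := (eis_isIntegral hP hz).tower_top
  rw [IntermediateField.adjoin.finrank hint, eis_minpoly hP hE hz F, hP.natDegree_map]

end Degree

include hinj hP hE hz in
/-- **Valuation subring form**: if `L` is the fraction field of `D[z]`, then `D[z]` is a discrete
valuation subring of `L` with uniformiser `z`. -/
theorem eis_valuationSubring
    (hfrac : ∀ l : L, ∃ r s : ↥(Algebra.adjoin D ({z} : Set L)), s ≠ 0 ∧ l = (r : L) / (s : L)) :
    ∃ V : ValuationSubring L, (∀ l : L, l ∈ V ↔ l ∈ Algebra.adjoin D ({z} : Set L)) ∧ V ≠ ⊤ ∧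
      IsPrincipalIdealRing V ∧ z ≠ 0 ∧ z ∈ V.nonunits ∧ ∀ y ∈ V.nonunits, y / z ∈ V := by
  have hdvr : IsDiscreteValuationRing ↥(Algebra.adjoin D ({z} : Set L)) :=
    eis_isDVR hinj hP hE hz
  have hz0 : z ≠ 0 := eis_gen_ne_zero hinj hE hz
  have hirr : Irreducible (eisGen (D := D) z) := eis_irreducible_gen hP hE hz
  have hcond : ∀ l : L, l ∈ (Algebra.adjoin D ({z} : Set L)).toSubring ∨
      l⁻¹ ∈ (Algebra.adjoin D ({z} : Set L)).toSubring := by
    intro l
    obtain ⟨r, s, hs, rfl⟩ := hfrac l
    have hs0 : (s : L) ≠ 0 := fun h => hs (Subtype.ext h)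
    obtain ⟨c, hc | hc⟩ := ValuationRing.cond r s
    · right
      by_cases hr : r = 0
      · rw [hr]
        simp
      have hr0 : (r : L) ≠ 0 := fun h => hr (Subtype.ext h)
      have h1 : ((r : L) / (s : L))⁻¹ = c := by
        have := congrArg Subtype.val hc
        push_cast at this
        rw [← this]
        field_simp
      rw [h1]
      exact c.2
    · left
      have h1 : (r : L) / (s : L) = c := by
        have := congrArg Subtype.val hc
        push_cast at this
        rw [← this]
        field_simp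
      rw [h1]
      exact c.2
  have hzi : z⁻¹ ∉ Algebra.adjoin D ({z} : Set L) := by
    intro h
    apply hirr.not_isUnit
    refine IsUnit.of_mul_eq_one ⟨z⁻¹, h⟩ (Subtype.ext ?_)
    push_cast
    rw [eisGen_coe]
    exact mul_inv_cancel₀ hz0
  refine ⟨ValuationSubring.ofSubring _ hcond, fun l => Iff.rfl, ?_, ?_, hz0, ?_, ?_⟩
  · intro h
    apply hzi
    have : z⁻¹ ∈ ValuationSubring.ofSubring _ hcond := by
      rw [h]
      exact ValuationSubring.mem_top _
    exact this
  · let e : ↥(Algebra.adjoin D ({z} : Set L)) →+* ↥(ValuationSubring.ofSubring _ hcond) :=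
      { toFun := fun r => ⟨r.1, r.2⟩
        map_one' := rfl
        map_mul' := fun _ _ => rfl
        map_zero' := rfl
        map_add' := fun _ _ => rfl }
    have he : Function.Surjective e := fun v => ⟨⟨v.1, v.2⟩, rfl⟩
    exact IsPrincipalIdealRing.of_surjective e he
  · rw [ValuationSubring.mem_nonunits_iff_or]
    exact Or.inr hzi
  · intro y hy
    have hyV : y ∈ Algebra.adjoin D ({z} : Set L) :=
      (ValuationSubring.ofSubring _ hcond).nonunits_subset hy
    rw [ValuationSubring.mem_nonunits_iff_or] at hy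
    have hym : (⟨y, hyV⟩ : ↥(Algebra.adjoin D ({z} : Set L)))
        ∈ maximalIdeal ↥(Algebra.adjoin D ({z} : Set L)) := by
      rw [IsLocalRing.mem_maximalIdeal, mem_nonunits_iff]
      intro hu
      obtain ⟨v, hv⟩ := hu.exists_right_inv
      have hv' : y * (v : L) = 1 := by
        have := congrArg Subtype.val hv
        exact this
      rcases hy with hy | hy
      · rw [hy, zero_mul] at hv'
        exact zero_ne_one hv'
      · apply hy
        have : y⁻¹ = v := (eq_inv_of_mul_eq_one_right hv').symm ▸ rfl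
        rw [this]
        exact v.2
    rw [eis_maximalIdeal hP hE hz, Ideal.mem_span_singleton] at hym
    obtain ⟨c, hc⟩ := hym
    have h1 : y = z * (c : L) := congrArg Subtype.val hc
    have h2 : y / z = c := by
      rw [h1]
      field_simp
    rw [h2]
    exact c.2

end Eis

/-! ## Producing the Eisenstein hypothesis -/

section Mk

variable {D : Type*} [CommRing D] [IsDomain D] [IsDiscreteValuationRing D]

/-- Elementary Eisenstein criterion over a DVR: monic, lower coefficients divisible by the
uniformiser `ϖ`, constant coefficient `ϖ` times a unit. -/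
theorem eis_isEisensteinAt_of_coeff {P : D[X]} (hP : P.Monic) (ϖ : D) (hϖ : Irreducible ϖ)
    (hc : ∀ i, i < P.natDegree → ϖ ∣ P.coeff i)
    (h0 : ∃ u : D, IsUnit u ∧ P.coeff 0 = ϖ * u) :
    P.IsEisensteinAt (maximalIdeal D) := by
  have hm : maximalIdeal D = Ideal.span {ϖ} := hϖ.maximalIdeal_eq
  refine ⟨?_, fun {i} hi => ?_, ?_⟩
  · rw [hP.leadingCoeff]
    exact fun h => (IsLocalRing.mem_maximalIdeal _).mp h isUnit_one
  · rw [hm, Ideal.mem_span_singleton]
    exact hc i hi
  · obtain ⟨u, hu, h⟩ := h0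
    rw [h, hm, Ideal.span_singleton_pow, Ideal.mem_span_singleton]
    rintro ⟨c, hc'⟩
    have h1 : u = ϖ * c := by
      have h2 : ϖ * u = ϖ * (ϖ * c) := by rw [hc']; ring
      exact mul_left_cancel₀ hϖ.ne_zero h2
    have h3 : u ∈ maximalIdeal D := by
      rw [hm, Ideal.mem_span_singleton]
      exact ⟨c, h1⟩
    exact (IsLocalRing.mem_maximalIdeal _).mp h3 hu

/-- `X ^ n - x` (`x` a uniformiser, `n ≥ 1`) is monic and Eisenstein. -/
theorem eis_X_pow_sub_C {n : ℕ} (hn : 0 < n) (x : D) (hx : Irreducible x) :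
    (X ^ n - C x : D[X]).Monic ∧ (X ^ n - C x : D[X]).IsEisensteinAt (maximalIdeal D) := by
  have hmon : (X ^ n - C x : D[X]).Monic := monic_X_pow_sub_C x hn.ne'
  have hdeg : (X ^ n - C x : D[X]).natDegree = n := natDegree_X_pow_sub_C
  refine ⟨hmon, eis_isEisensteinAt_of_coeff hmon x hx (fun i hi => ?_)
    ⟨-1, isUnit_one.neg, ?_⟩⟩
  · rw [hdeg] at hi
    rw [coeff_sub, coeff_X_pow, coeff_C, if_neg hi.ne]
    by_cases h0 : i = 0
    · rw [if_pos h0, zero_sub]
      exact (dvd_refl x).neg_right
    · rw [if_neg h0, sub_zero]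
      exact dvd_zero _
  · rw [coeff_sub, coeff_X_pow, coeff_C, if_neg hn.ne, if_pos rfl]
    ring

/-- **The purely (in)separable case** `z ^ n = x`, `x` a uniformiser of `D`: `D[z]` is a discrete
valuation ring with uniformiser `z`. -/
theorem eis_root_isDVR {L : Type*} [Field L] [Algebra D L]
    (hinj : Function.Injective (algebraMap D L)) {n : ℕ} (hn : 0 < n) (x : D)
    (hx : Irreducible x) (z : L) (hz : z ^ n = algebraMap D L x) :
    IsDiscreteValuationRing ↥(Algebra.adjoin D ({z} : Set L)) ∧
      Irreducible (eisGen (D := D) z) ∧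
      ∀ r : ↥(Algebra.adjoin D ({z} : Set L)),
        ∃ d : D, r - algebraMap D _ d ∈ Ideal.span {eisGen (D := D) z} := by
  obtain ⟨hmon, hE⟩ := eis_X_pow_sub_C hn x hx
  have hroot : aeval z (X ^ n - C x : D[X]) = 0 := by
    rw [map_sub, map_pow, aeval_X, aeval_C, hz, sub_self]
  have hdvr := eis_isDVR hinj hmon hE hroot
  exact ⟨hdvr, eis_irreducible_gen hmon hE hroot, eis_residue⟩

end Mk

/-! ## A discrete valuation ring is a maximal proper subring of its fraction field -/

section Maximal

variable {E : Type*} [Field E]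

/-- A rank-one valuation subring is a maximal proper subring. -/
theorem IsRankOneVS.subring_eq_or_eq_top {V : ValuationSubring E} (hV : IsRankOneVS V)
    (S : Subring E) (h : V.toSubring ≤ S) : S = V.toSubring ∨ S = ⊤ := by
  by_cases hS : S ≤ V.toSubring
  · exact Or.inl (le_antisymm hS h)
  · right
    obtain ⟨w, hwS, hwV⟩ := Set.not_subset.mp hS
    have hwV' : w ∉ V := hwV
    have hw0 : w ≠ 0 := fun h0 => hwV' (h0 ▸ V.zero_mem)
    have hwi : w⁻¹ ∈ V.nonunits := by
      rw [V.inv_mem_nonunits_iff]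
      exact Or.inr hwV'
    rw [eq_top_iff]
    intro y _
    obtain ⟨n, hn⟩ := hV.2 w⁻¹ hwi (inv_ne_zero hw0) y
    have h1 : y = w ^ n * (w⁻¹ ^ n * y) := by
      rw [← mul_assoc, ← mul_pow, mul_inv_cancel₀ hw0, one_pow, one_mul]
    rw [h1]
    exact S.mul_mem (S.pow_mem hwS n) (h hn)

/-- **DVR-maximality**, valuation subring form (convention of `H22.KL.IsPlace`). -/
theorem dvr_subring_eq_or_eq_top (V : ValuationSubring E) (hV : V ≠ ⊤) [IsPrincipalIdealRing V]
    (S : Subring E) (h : V.toSubring ≤ S) : S = V.toSubring ∨ S = ⊤ :=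
  (isRankOneVS_of_pid V hV).subring_eq_or_eq_top S h

/-- **DVR-maximality**: a subalgebra of the fraction field `F` of a discrete valuation ring `D`
is `D` or `F`. -/
theorem dvr_subalgebra_eq_bot_or_top (D : Type*) [CommRing D] [IsDomain D]
    [IsDiscreteValuationRing D] (F : Type*) [Field F] [Algebra D F] [IsFractionRing D F]
    (S : Subalgebra D F) : S = ⊥ ∨ S = ⊤ := by
  by_cases hS : S = ⊥
  · exact Or.inl hS
  right
  obtain ⟨ϖ, hϖ⟩ := IsDiscreteValuationRing.exists_irreducible D
  have hinj : Function.Injective (algebraMap D F) := IsFractionRing.injective D F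
  have hϖ0 : algebraMap D F ϖ ≠ 0 := fun h => hϖ.ne_zero (hinj (by rw [h, map_zero]))
  -- some element of `S` is not in `D`
  obtain ⟨s, hsS, hsD⟩ : ∃ s ∈ S, s ∉ (⊥ : Subalgebra D F) := by
    by_contra hcon
    push Not at hcon
    exact hS (le_antisymm (fun s hs => hcon s hs) bot_le)
  -- `ϖ⁻¹ ∈ S`
  have hϖi : (algebraMap D F ϖ)⁻¹ ∈ S := by
    obtain ⟨a, b, hb, rfl⟩ := IsFractionRing.div_surjective (A := D) s
    have hb0 : b ≠ 0 := nonZeroDivisors.ne_zero hb
    have hbF : algebraMap D F b ≠ 0 := fun h => hb0 (hinj (by rw [h, map_zero]))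
    obtain ⟨c, hc | hc⟩ := ValuationRing.cond a b
    · -- `a * c = b`
      have ha0 : a ≠ 0 := by
        rintro rfl
        rw [zero_mul] at hc
        exact hb0 hc.symm
      have haF : algebraMap D F a ≠ 0 := fun h => ha0 (hinj (by rw [h, map_zero]))
      have hc0 : c ≠ 0 := by
        rintro rfl
        rw [mul_zero] at hc
        exact hb0 hc.symm
      have hcF : algebraMap D F c ≠ 0 := fun h => hc0 (hinj (by rw [h, map_zero]))
      have hs : algebraMap D F a / algebraMap D F b = (algebraMap D F c)⁻¹ := by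
        rw [← hc, map_mul]
        field_simp
      have hcnu : ¬ IsUnit c := by
        intro hu
        apply hsD
        obtain ⟨u, rfl⟩ := hu
        rw [hs, Algebra.mem_bot]
        refine ⟨((u⁻¹ : Dˣ) : D), ?_⟩
        apply eq_inv_of_mul_eq_one_left
        rw [← map_mul, Units.inv_mul, map_one]
      obtain ⟨k, u, hk⟩ := IsDiscreteValuationRing.eq_unit_mul_pow_irreducible hc0 hϖ
      have hk0 : k ≠ 0 := by
        rintro rfl
        rw [pow_zero, mul_one] at hk
        exact hcnu (hk ▸ u.isUnit)
      obtain ⟨j, rfl⟩ : ∃ j, k = j + 1 := ⟨k - 1, by omega⟩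
      have h1 : (algebraMap D F ϖ)⁻¹
          = algebraMap D F ((u : D) * ϖ ^ j) * (algebraMap D F a / algebraMap D F b) := by
        have huF : algebraMap D F (u : D) ≠ 0 :=
          fun h => u.ne_zero (hinj (by rw [h, map_zero]))
        rw [hs, hk, map_mul, map_mul, map_pow, map_pow]
        field_simp
        ring
      rw [h1]
      exact S.mul_mem (S.algebraMap_mem _) hsS
    · -- `b * c = a`: then `s = c ∈ D`
      exfalso
      apply hsD
      rw [Algebra.mem_bot]
      refine ⟨c, ?_⟩
      rw [← hc, map_mul]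
      field_simp
  rw [eq_top_iff]
  intro y _
  obtain ⟨a, b, hb, rfl⟩ := IsFractionRing.div_surjective (A := D) y
  have hb0 : b ≠ 0 := nonZeroDivisors.ne_zero hb
  obtain ⟨k, u, hk⟩ := IsDiscreteValuationRing.eq_unit_mul_pow_irreducible hb0 hϖ
  have huF : algebraMap D F (u : D) ≠ 0 := fun h => u.ne_zero (hinj (by rw [h, map_zero]))
  have h1 : algebraMap D F a / algebraMap D F b
      = algebraMap D F (a * ((u⁻¹ : Dˣ) : D)) * (algebraMap D F ϖ)⁻¹ ^ k := by
    have hui : algebraMap D F ((u⁻¹ : Dˣ) : D) = (algebraMap D F (u : D))⁻¹ := by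
      apply eq_inv_of_mul_eq_one_left
      rw [← map_mul, Units.inv_mul, map_one]
    rw [hk, map_mul, map_mul, map_pow, hui, inv_pow]
    field_simp
  rw [h1]
  exact S.mul_mem (S.algebraMap_mem _) (S.pow_mem hϖi k)

end Maximal

end Fermat.Agent.H18.SS2
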