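import Mathlib

/-!
# P-SS2 : a localisation with principal maximal ideal is a discrete valuation subring (helper18)

Mathlib only.  `L` a field, `A ⊆ L` a noetherian subring with fraction field `L`, `𝔪` a maximal
ideal of `A` and `t ∈ 𝔪`, `t ≠ 0`, generating `𝔪 A_𝔪` (for every `a ∈ 𝔪` there is `s ∉ 𝔪` with
`s a ∈ t A`).  Then `A_𝔪 = {l | ∃ s ∉ 𝔪, l s ∈ A}` is a discrete valuation subring of `L` with
uniformiser `t`.

* `loc_factor` : every nonzero `a ∈ A` is `t ^ k * u / s` with `u, s ∉ 𝔪`.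
* `locDvr` : the valuation subring.
-/

set_option autoImplicit false
set_option linter.unusedSectionVars false

namespace Fermat.Agent.H18.SS2

open IsLocalRing

/-- In a noetherian domain `A` with a maximal ideal `𝔪` such that `𝔪 A_𝔪 = t A_𝔪`, every nonzero
element is `t ^ k * u / s` with `u, s ∉ 𝔪`. -/
theorem loc_factor {A : Type*} [CommRing A] [IsDomain A] [IsNoetherianRing A] (𝔪 : Ideal A)
    [h𝔪 : 𝔪.IsMaximal] (t : A) (ht0 : t ≠ 0) (ht : t ∈ 𝔪)
    (hgen : ∀ a ∈ 𝔪, ∃ s : A, s ∉ 𝔪 ∧ ∃ b : A, s * a = t * b)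
    (a : A) (ha : a ≠ 0) :
    ∃ (k : ℕ) (s u : A), s ∉ 𝔪 ∧ u ∉ 𝔪 ∧ s * a = t ^ k * u := by
  have hprime : 𝔪.IsPrime := h𝔪.isPrime
  set B := Localization.AtPrime 𝔪 with hB
  have hle : 𝔪.primeCompl ≤ nonZeroDivisors A := Ideal.primeCompl_le_nonZeroDivisors 𝔪
  have hdom : IsDomain B := IsLocalization.isDomain_localization hle
  have hinj : Function.Injective (algebraMap A B) := IsLocalization.injective B hle
  have hnoe : IsNoetherianRing B := IsLocalization.isNoetherianRing 𝔪.primeCompl B inferInstance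
  -- the maximal ideal of `B` is generated by `t`
  have hmax : maximalIdeal B = Ideal.span {algebraMap A B t} := by
    rw [← Localization.AtPrime.map_eq_maximalIdeal]
    apply le_antisymm
    · rw [Ideal.map_le_iff_le_comap]
      intro x hx
      obtain ⟨s, hs, b, hsb⟩ := hgen x hx
      rw [Ideal.mem_comap, Ideal.mem_span_singleton]
      have hsu : IsUnit (algebraMap A B s) :=
        (IsLocalization.AtPrime.isUnit_to_map_iff B 𝔪 s).mpr hs
      obtain ⟨v, hv⟩ := hsu
      refine ⟨algebraMap A B b * ((v⁻¹ : Bˣ) : B), ?_⟩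
      have h1 : algebraMap A B s * algebraMap A B x = algebraMap A B t * algebraMap A B b := by
        rw [← map_mul, ← map_mul, hsb]
      rw [← hv] at h1
      calc algebraMap A B x = ((v⁻¹ : Bˣ) : B) * ((v : B) * algebraMap A B x) := by
            rw [← mul_assoc, Units.inv_mul, one_mul]
        _ = ((v⁻¹ : Bˣ) : B) * (algebraMap A B t * algebraMap A B b) := by rw [h1]
        _ = algebraMap A B t * (algebraMap A B b * ((v⁻¹ : Bˣ) : B)) := by ring
    · rw [Ideal.span_singleton_le_iff_mem]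
      exact Ideal.mem_map_of_mem _ ht
  have hτ0 : algebraMap A B t ≠ 0 := fun h => ht0 (hinj (by rw [h, map_zero]))
  have hnf : ¬ IsField B := by
    rw [IsLocalRing.isField_iff_maximalIdeal_eq, hmax, Ideal.span_singleton_eq_bot]
    exact hτ0
  have hdvr : IsDiscreteValuationRing B := by
    refine ((IsDiscreteValuationRing.TFAE B hnf).out 4 0).mp ?_
    rw [hmax]
    exact ⟨⟨_, rfl⟩⟩
  have hirr : Irreducible (algebraMap A B t) :=
    (IsDiscreteValuationRing.irreducible_iff_uniformizer _).mpr hmax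
  have ha0 : algebraMap A B a ≠ 0 := fun h => ha (hinj (by rw [h, map_zero]))
  obtain ⟨k, w, hw⟩ := IsDiscreteValuationRing.eq_unit_mul_pow_irreducible ha0 hirr
  obtain ⟨⟨u, s⟩, hus⟩ := IsLocalization.mk'_surjective 𝔪.primeCompl (w : B)
  have hus' : IsLocalization.mk' B u s = (w : B) := hus
  have hu : u ∉ 𝔪 := by
    have h1 : IsUnit (IsLocalization.mk' B u s) := by rw [hus']; exact w.isUnit
    exact (IsLocalization.AtPrime.isUnit_mk'_iff B 𝔪 u s).mp h1
  refine ⟨k, s, u, s.2, hu, hinj ?_⟩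
  have h2 : (w : B) * algebraMap A B s = algebraMap A B u := by
    rw [← hus']
    exact IsLocalization.mk'_spec B u s
  rw [map_mul, map_mul, map_pow, hw, ← h2]
  ring

/-- The localisation `A_𝔪` inside `L`, as a subring. -/
def locSubring {L : Type*} [Field L] (A : Subring L) (𝔪 : Ideal A) [h𝔪 : 𝔪.IsPrime] :
    Subring L where
  carrier := {l | ∃ a s : A, s ∉ 𝔪 ∧ l * (s : L) = a}
  mul_mem' := by
    rintro x y ⟨a, s, hs, hx⟩ ⟨b, r, hr, hy⟩
    refine ⟨a * b, s * r, fun h => (h𝔪.mem_or_mem h).elim hs hr, ?_⟩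
    push_cast
    rw [← hx, ← hy]
    ring
  one_mem' := ⟨1, 1, fun h => h𝔪.ne_top ((Ideal.eq_top_iff_one _).mpr h), by simp⟩
  add_mem' := by
    rintro x y ⟨a, s, hs, hx⟩ ⟨b, r, hr, hy⟩
    refine ⟨a * r + b * s, s * r, fun h => (h𝔪.mem_or_mem h).elim hs hr, ?_⟩
    push_cast
    rw [← hx, ← hy]
    ring
  zero_mem' := ⟨0, 1, fun h => h𝔪.ne_top ((Ideal.eq_top_iff_one _).mpr h), by simp⟩
  neg_mem' := by
    rintro x ⟨a, s, hs, hx⟩
    refine ⟨-a, s, hs, ?_⟩
    push_cast
    rw [← hx]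
    ring

theorem mem_locSubring {L : Type*} [Field L] (A : Subring L) (𝔪 : Ideal A) [h𝔪 : 𝔪.IsPrime]
    (l : L) : l ∈ locSubring A 𝔪 ↔ ∃ a s : A, s ∉ 𝔪 ∧ l * (s : L) = a := Iff.rfl

theorem coe_mem_locSubring {L : Type*} [Field L] (A : Subring L) (𝔪 : Ideal A)
    [h𝔪 : 𝔪.IsPrime] (a : A) : (a : L) ∈ locSubring A 𝔪 :=
  ⟨a, 1, fun h => h𝔪.ne_top ((Ideal.eq_top_iff_one _).mpr h), by simp⟩

/-- **The localisation at a maximal ideal with principal extension is a discrete valuation
subring.** -/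
theorem locDvr {L : Type*} [Field L] (A : Subring L) [IsNoetherianRing A]
    (hfrac : ∀ l : L, ∃ a b : A, b ≠ 0 ∧ l = (a : L) / (b : L))
    (𝔪 : Ideal A) [h𝔪 : 𝔪.IsMaximal] (t : A) (ht0 : t ≠ 0) (ht : t ∈ 𝔪)
    (hgen : ∀ a ∈ 𝔪, ∃ s : A, s ∉ 𝔪 ∧ ∃ b : A, s * a = t * b) :
    ∃ W : ValuationSubring L,
      (∀ l : L, l ∈ W ↔ ∃ a s : A, s ∉ 𝔪 ∧ l * (s : L) = a) ∧
      W ≠ ⊤ ∧ IsPrincipalIdealRing W ∧
      (∀ a : A, (a : L) ∈ W.nonunits ↔ a ∈ 𝔪) ∧
      ((t : L) ≠ 0 ∧ (t : L) ∈ W.nonunits ∧ ∀ y ∈ W.nonunits, y / (t : L) ∈ W) := by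
  have hprime : 𝔪.IsPrime := h𝔪.isPrime
  have hcoe0 : ∀ a : A, (a : L) = 0 ↔ a = 0 := fun a =>
    ⟨fun h => Subtype.ext h, fun h => by rw [h]; rfl⟩
  have htL0 : (t : L) ≠ 0 := fun h => ht0 ((hcoe0 t).mp h)
  have hfac := loc_factor 𝔪 t ht0 ht hgen
  -- valuation ring property
  have hcond : ∀ l : L, l ∈ locSubring A 𝔪 ∨ l⁻¹ ∈ locSubring A 𝔪 := by
    intro l
    by_cases hl : l = 0
    · left
      rw [hl]
      exact (locSubring A 𝔪).zero_mem
    obtain ⟨a, b, hb, hab⟩ := hfrac l
    have hbL : (b : L) ≠ 0 := fun h => hb ((hcoe0 b).mp h)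
    have ha : a ≠ 0 := by
      rintro rfl
      apply hl
      rw [hab]
      simp
    have haL : (a : L) ≠ 0 := fun h => ha ((hcoe0 a).mp h)
    obtain ⟨i, sa, ua, hsa, hua, hia⟩ := hfac a ha
    obtain ⟨j, sb, ub, hsb, hub, hjb⟩ := hfac b hb
    have hiaL : (sa : L) * a = (t : L) ^ i * ua := by
      have := congrArg Subtype.val hia
      push_cast at this
      exact this
    have hjbL : (sb : L) * b = (t : L) ^ j * ub := by
      have := congrArg Subtype.val hjb
      push_cast at this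
      exact this
    have hsaL : (sa : L) ≠ 0 := fun h => hsa (by rw [(hcoe0 sa).mp h]; exact 𝔪.zero_mem)
    have hsbL : (sb : L) ≠ 0 := fun h => hsb (by rw [(hcoe0 sb).mp h]; exact 𝔪.zero_mem)
    have huaL : (ua : L) ≠ 0 := fun h => hua (by rw [(hcoe0 ua).mp h]; exact 𝔪.zero_mem)
    have hubL : (ub : L) ≠ 0 := fun h => hub (by rw [(hcoe0 ub).mp h]; exact 𝔪.zero_mem)
    rcases le_total j i with hji | hij
    · left
      obtain ⟨d, rfl⟩ := Nat.exists_eq_add_of_le hji
      refine ⟨t ^ d * ua * sb, ub * sa, fun h => (hprime.mem_or_mem h).elim hub hsa, ?_⟩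
      push_cast
      have e1 : (a : L) = (t : L) ^ (j + d) * ua / sa := by
        field_simp
        rw [mul_comm, hiaL]
      have e2 : (b : L) = (t : L) ^ j * ub / sb := by
        field_simp
        rw [mul_comm, hjbL]
      rw [hab, e1, e2, pow_add]
      field_simp
    · right
      obtain ⟨d, rfl⟩ := Nat.exists_eq_add_of_le hij
      refine ⟨t ^ d * ub * sa, ua * sb, fun h => (hprime.mem_or_mem h).elim hua hsb, ?_⟩
      push_cast
      have e1 : (a : L) = (t : L) ^ i * ua / sa := by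
        field_simp
        rw [mul_comm, hiaL]
      have e2 : (b : L) = (t : L) ^ (i + d) * ub / sb := by
        field_simp
        rw [mul_comm, hjbL]
      rw [hab, e1, e2, pow_add]
      field_simp
  set W : ValuationSubring L := ValuationSubring.ofSubring (locSubring A 𝔪) hcond with hW
  have hmemW : ∀ l : L, l ∈ W ↔ ∃ a s : A, s ∉ 𝔪 ∧ l * (s : L) = a := fun l => Iff.rfl
  -- nonunits
  have hnon : ∀ a : A, (a : L) ∈ W.nonunits ↔ a ∈ 𝔪 := by
    intro a
    rw [ValuationSubring.mem_nonunits_iff_or]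
    constructor
    · rintro (h | h)
      · rw [(hcoe0 a).mp h]
        exact 𝔪.zero_mem
      · by_contra ha
        apply h
        have ha0 : (a : L) ≠ 0 := fun h0 => ha (by rw [(hcoe0 a).mp h0]; exact 𝔪.zero_mem)
        exact (hmemW _).mpr ⟨1, a, ha, by
          push_cast
          exact inv_mul_cancel₀ ha0⟩
    · intro ha
      by_cases ha0 : (a : L) = 0
      · exact Or.inl ha0
      · right
        intro h
        obtain ⟨b, s, hs, hbs⟩ := (hmemW _).mp h
        apply hs
        have : s = a * b := by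
          apply Subtype.ext
          push_cast
          rw [← hbs]
          field_simp
        rw [this]
        exact 𝔪.mul_mem_right _ ha
  have htnon : (t : L) ∈ W.nonunits := (hnon t).mpr ht
  have hdiv : ∀ y ∈ W.nonunits, y / (t : L) ∈ W := by
    intro y hy
    have hyW : y ∈ W := W.nonunits_subset hy
    obtain ⟨a, s, hs, has⟩ := (hmemW y).mp hyW
    have hsL : (s : L) ≠ 0 := fun h => hs (by rw [(hcoe0 s).mp h]; exact 𝔪.zero_mem)
    have ha : a ∈ 𝔪 := by
      rw [← hnon]
      rw [← has]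
      have hsW : (s : L) ∈ W := (hmemW _).mpr ⟨s, 1, fun h =>
        hprime.ne_top ((Ideal.eq_top_iff_one _).mpr h), by simp⟩
      rw [W.mem_nonunits_iff] at hy ⊢
      rw [map_mul]
      calc W.valuation y * W.valuation (s : L) ≤ W.valuation y * 1 := by
            gcongr
            exact (W.valuation_le_one_iff _).mpr hsW
        _ = W.valuation y := mul_one _
        _ < 1 := hy
    obtain ⟨s', hs', b, hb⟩ := hgen a ha
    refine (hmemW _).mpr ⟨b, s * s', fun h => (hprime.mem_or_mem h).elim hs hs', ?_⟩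
    have hbL : (s' : L) * a = (t : L) * b := by
      have := congrArg Subtype.val hb
      push_cast at this
      exact this
    push_cast
    have : y / (t : L) * ((s : L) * s') = ((s' : L) * (y * s)) / t := by
      field_simp
    rw [this, has, hbL]
    field_simp
  refine ⟨W, hmemW, ?_, ?_, hnon, htL0, htnon, hdiv⟩
  · intro h
    have h1 : (t : L)⁻¹ ∈ W := by rw [h]; exact ValuationSubring.mem_top _
    rw [ValuationSubring.mem_nonunits_iff_or] at htnon
    rcases htnon with h2 | h2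
    · exact htL0 h2
    · exact h2 h1
  · -- principal ideal ring: unit times power of `t`
    have htW : (t : L) ∈ W := W.nonunits_subset htnon
    have hirr : Irreducible (⟨(t : L), htW⟩ : W) := by
      have hmaxW : IsLocalRing.maximalIdeal W = Ideal.span {(⟨(t : L), htW⟩ : W)} := by
        apply le_antisymm
        · intro y hy
          rw [← W.coe_mem_nonunits_iff] at hy
          rw [Ideal.mem_span_singleton]
          refine ⟨⟨_, hdiv _ hy⟩, Subtype.ext ?_⟩
          push_cast
          field_simp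
        · rw [Ideal.span_singleton_le_iff_mem, ← W.coe_mem_nonunits_iff]
          exact htnon
      have htW0 : (⟨(t : L), htW⟩ : W) ≠ 0 := fun h => htL0 (congrArg Subtype.val h)
      refine ⟨?_, fun x y hxy => ?_⟩
      · rw [← mem_nonunits_iff, ← IsLocalRing.mem_maximalIdeal, hmaxW]
        exact Ideal.mem_span_singleton_self _
      · by_contra hcon
        push Not at hcon
        obtain ⟨hx, hy⟩ := hcon
        have hxm : x ∈ IsLocalRing.maximalIdeal W := (IsLocalRing.mem_maximalIdeal _).mpr hx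
        rw [hmaxW, Ideal.mem_span_singleton] at hxm
        obtain ⟨x', rfl⟩ := hxm
        have h1 : (⟨(t : L), htW⟩ : W) * 1 = ⟨(t : L), htW⟩ * (x' * y) := by
          rw [mul_one, ← mul_assoc]
          exact hxy
        have h2 : 1 = x' * y := mul_left_cancel₀ htW0 h1
        exact hy (IsUnit.of_mul_eq_one x' (by rw [mul_comm]; exact h2.symm))
    -- units of `W` coming from `A ∖ 𝔪`
    have hunit : ∀ a : A, a ∉ 𝔪 → ∀ ha : (a : L) ∈ W, IsUnit (⟨(a : L), ha⟩ : W) := by
      intro a ha haW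
      by_contra hnu
      have h1 : (⟨(a : L), haW⟩ : W) ∈ IsLocalRing.maximalIdeal W :=
        (IsLocalRing.mem_maximalIdeal _).mpr hnu
      rw [← W.coe_mem_nonunits_iff] at h1
      exact ha ((hnon a).mp h1)
    have hAW : ∀ a : A, (a : L) ∈ W := fun a => (hmemW _).mpr ⟨a, 1, fun h =>
      hprime.ne_top ((Ideal.eq_top_iff_one _).mpr h), by simp⟩
    have hfactor : IsDiscreteValuationRing.HasUnitMulPowIrreducibleFactorization W := by
      refine ⟨⟨(t : L), htW⟩, hirr, fun {x} hx => ?_⟩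
      obtain ⟨a, s, hs, has⟩ := (hmemW _).mp x.2
      have hsL : (s : L) ≠ 0 := fun h => hs (by rw [(hcoe0 s).mp h]; exact 𝔪.zero_mem)
      have hxL : (x : L) ≠ 0 := fun h => hx (Subtype.ext h)
      have ha : a ≠ 0 := by
        rintro rfl
        have : (x : L) * s = 0 := has
        rcases mul_eq_zero.mp this with h | h
        · exact hxL h
        · exact hsL h
      obtain ⟨k, sa, ua, hsa, hua, hka⟩ := hfac a ha
      obtain ⟨vs, hvs⟩ := hunit s hs (hAW s)
      obtain ⟨vsa, hvsa⟩ := hunit sa hsa (hAW sa)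
      obtain ⟨vua, hvua⟩ := hunit ua hua (hAW ua)
      refine ⟨k, vua * vs⁻¹ * vsa⁻¹, ?_⟩
      have e1 : (x : W) * (vs : W) * (vsa : W) = ⟨(t : L), htW⟩ ^ k * (vua : W) := by
        apply Subtype.ext
        rw [hvs, hvsa, hvua]
        push_cast
        have hkaL : (sa : L) * a = (t : L) ^ k * ua := by
          have := congrArg Subtype.val hka
          push_cast at this
          exact this
        rw [has, ← hkaL]
        ring
      calc (⟨(t : L), htW⟩ : W) ^ k * ((vua * vs⁻¹ * vsa⁻¹ : Wˣ) : W)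
          = (⟨(t : L), htW⟩ ^ k * (vua : W)) * ((vs⁻¹ : Wˣ) : W) * ((vsa⁻¹ : Wˣ) : W) := by
            push_cast
            ring
        _ = (x : W) * (vs : W) * (vsa : W) * ((vs⁻¹ : Wˣ) : W) * ((vsa⁻¹ : Wˣ) : W) := by
            rw [e1]
        _ = x * ((vs : W) * ((vs⁻¹ : Wˣ) : W)) * ((vsa : W) * ((vsa⁻¹ : Wˣ) : W)) := by ring
        _ = x := by rw [Units.mul_inv, Units.mul_inv, mul_one, mul_one]
    have hdvr : IsDiscreteValuationRing W :=
      IsDiscreteValuationRing.ofHasUnitMulPowIrreducibleFactorization hfactor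
    infer_instance

end Fermat.Agent.H18.SS2
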