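import Fermat.Agent.H11.SS2.DKDefs
import Fermat.Agent.H18.SS2.LocDvr
import Fermat.Agent.H18.SS2.EisDvr

/-!
# P-SS2, rows SS2-A8 / SS2-A9 : basic facts for the Dedekind-Kummer statements (helper18)

Mathlib only.  `O` a valuation subring of `K`, `L / K` finite, `z ∈ L` a root of a monic
`P₀ ∈ O[X]` of degree `[L : K]`, `L = K[z]`.

* `dk_natDegree_minpoly` : `deg (minpoly K z) = [L : K]`.
* `dk_dvd_of_aeval_eq_zero` : the kernel of `O[X] → L`, `X ↦ z`, is `(P₀)`.
* `dk_frac` : `L` is the fraction field of `O[z]`.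
* `dk_root_mem` : `z` lies in every valuation subring of `L` containing `O`.
-/

set_option autoImplicit false
set_option linter.unusedSectionVars false

noncomputable section

namespace Fermat.Agent.H18.SS2

open Polynomial

variable {K L : Type} [Field K] [Field L] [Algebra K L] [FiniteDimensional K L]

/-- If `L = K[z]` then the minimal polynomial of `z` has degree `[L : K]`. -/
theorem dk_natDegree_minpoly (z : L) (hgen : ∀ w : L, ∃ Q : K[X], aeval z Q = w) :
    (minpoly K z).natDegree = Module.finrank K L := by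
  have hint : IsIntegral K z := Algebra.IsIntegral.isIntegral z
  have htop : IntermediateField.adjoin K ({z} : Set L) = ⊤ := by
    rw [eq_top_iff]
    intro w _
    obtain ⟨Q, rfl⟩ := hgen w
    have : aeval z Q ∈ Algebra.adjoin K ({z} : Set L) := by
      rw [Algebra.adjoin_singleton_eq_range_aeval]
      exact ⟨Q, rfl⟩
    exact IntermediateField.algebra_adjoin_le_adjoin K _ this
  rw [← IntermediateField.adjoin.finrank hint, htop, IntermediateField.finrank_top']

variable (O : ValuationSubring K)

/-- The kernel of `O[X] → L`, `X ↦ z`, is generated by `P₀`. -/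
theorem dk_dvd_of_aeval_eq_zero (z : L) (P₀ : (↥O)[X]) (hP₀ : P₀.Monic)
    (hdeg : P₀.natDegree = (minpoly K z).natDegree)
    (Q : (↥O)[X]) (hQ : aeval z Q = 0) (hP₀z : aeval z P₀ = 0) : P₀ ∣ Q := by
  have hint : IsIntegral K z := Algebra.IsIntegral.isIntegral z
  rw [← Polynomial.modByMonic_eq_zero_iff_dvd hP₀]
  by_contra hr
  have hinj : Function.Injective (algebraMap (↥O) K) := Subtype.val_injective
  have hr' : (Q %ₘ P₀).map (algebraMap (↥O) K) ≠ 0 := by
    intro h
    exact hr (Polynomial.map_injective _ hinj (by rw [h, Polynomial.map_zero]))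
  have hroot : aeval z ((Q %ₘ P₀).map (algebraMap (↥O) K)) = 0 := by
    rw [aeval_map_algebraMap]
    have h1 := Polynomial.modByMonic_add_div Q P₀
    have h2 : aeval z (Q %ₘ P₀ + P₀ * (Q /ₘ P₀)) = 0 := by rw [h1]; exact hQ
    rw [map_add, map_mul, hP₀z, zero_mul, add_zero] at h2
    exact h2
  have h3 : (minpoly K z).natDegree ≤ ((Q %ₘ P₀).map (algebraMap (↥O) K)).natDegree :=
    Polynomial.natDegree_le_natDegree (minpoly.degree_le_of_ne_zero K z hr' hroot)
  have hnz : P₀ ≠ 1 := by
    rintro rfl
    rw [map_one] at hP₀z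
    exact one_ne_zero hP₀z
  have h4 : (Q %ₘ P₀).natDegree < P₀.natDegree :=
    Polynomial.natDegree_modByMonic_lt Q hP₀ hnz
  have h5 : ((Q %ₘ P₀).map (algebraMap (↥O) K)).natDegree ≤ (Q %ₘ P₀).natDegree :=
    Polynomial.natDegree_map_le
  omega

/-- `L` is the fraction field of `O[z]`. -/
theorem dk_frac (z : L) (hgen : ∀ w : L, ∃ Q : K[X], aeval z Q = w) (l : L) :
    ∃ (Q : (↥O)[X]) (d : ↥O), d ≠ 0 ∧ l = aeval z Q / algebraMap K L (d : K) := by
  obtain ⟨Q, rfl⟩ := hgen l
  obtain ⟨b, hbm, hb⟩ := IsLocalization.integerNormalization_spec (nonZeroDivisors (↥O)) Q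
  have hb0 : (b : ↥O) ≠ 0 := nonZeroDivisors.ne_zero hbm
  refine ⟨IsLocalization.integerNormalization (nonZeroDivisors (↥O)) Q, b, hb0, ?_⟩
  have hbK : ((b : ↥O) : K) ≠ 0 := fun h => hb0 (Subtype.ext h)
  have hbL : algebraMap K L ((b : ↥O) : K) ≠ 0 := by
    rw [Ne, map_eq_zero_iff _ (algebraMap K L).injective]
    exact hbK
  have h1 : aeval z (IsLocalization.integerNormalization (nonZeroDivisors (↥O)) Q)
      = algebraMap K L ((b : ↥O) : K) * aeval z Q := by
    rw [← aeval_map_algebraMap K, hb, Algebra.smul_def, map_mul]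
    congr 1
    rw [IsScalarTower.algebraMap_apply (↥O) K K[X], Polynomial.algebraMap_apply,
      Algebra.algebraMap_self, RingHom.id_apply, aeval_C]
    rfl
  rw [h1]
  field_simp

/-- A root of a monic polynomial with coefficients in `V` lies in `V`. -/
theorem dk_root_mem (V : ValuationSubring L) (z : L) (P : L[X]) (hP : P.Monic)
    (hcoeff : ∀ i, P.coeff i ∈ V) (hz : P.eval z = 0) : z ∈ V := by
  by_contra hzV
  have hv : 1 < V.valuation z := (wa_not_mem_iff V z).mp hzV
  have hn : P.natDegree ≠ 0 := by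
    intro h0
    have : P = 1 := by
      have := hP.as_sum
      rw [h0] at this
      simpa using this
    rw [this] at hz
    simp at hz
  have h1 : z ^ P.natDegree = -∑ i ∈ Finset.range P.natDegree, P.coeff i * z ^ i := by
    have h2 : P.eval z = z ^ P.natDegree
        + ∑ i ∈ Finset.range P.natDegree, P.coeff i * z ^ i := by
      conv_lhs => rw [hP.as_sum]
      simp [eval_finsetSum]
    rw [hz] at h2
    exact eq_neg_of_add_eq_zero_left h2.symm
  have h3 : V.valuation (z ^ P.natDegree) < V.valuation z ^ P.natDegree := by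
    rw [h1, Valuation.map_neg]
    refine Valuation.map_sum_lt _ (pow_ne_zero _ (ne_of_gt (lt_trans zero_lt_one hv)))
      (fun i hi => ?_)
    rw [map_mul, map_pow]
    have hi' : i < P.natDegree := Finset.mem_range.mp hi
    have hc : V.valuation (P.coeff i) ≤ 1 := (V.valuation_le_one_iff _).mpr (hcoeff i)
    calc V.valuation (P.coeff i) * V.valuation z ^ i ≤ 1 * V.valuation z ^ i := by gcongr
      _ = V.valuation z ^ i := one_mul _
      _ < V.valuation z ^ P.natDegree := pow_lt_pow_right₀ hv hi'
  rw [map_pow] at h3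
  exact lt_irrefl _ h3

end Fermat.Agent.H18.SS2
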