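import Fermat.Agent.H18.SS2.DKBasics

/-!
# P-SS2, rows SS2-A8 / SS2-A9 : the valuation subring of a "point" of `O[z]` (helper18)

Mathlib only.  `O` a discrete valuation subring of `K`, `L = K[z]`, `A = O[z] ≅ O[X] / (P₀)`.
A ring homomorphism `ψ : O[X] → k` (`k` the residue field of `O`) with `ψ ∘ C = residue` and
`ψ P₀ = 0` is a `k`-rational point of the special fibre of `A`; its kernel `𝔪 ⊆ A` is a maximal
ideal.  If `𝔪 A_𝔪` is generated by `t = T(z)`, then `W = A_𝔪` is a discrete valuation subring of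
`L` above `O`, with uniformiser `t` and residue field `k`, and it is the only valuation subring
above `O` whose maximal ideal contains `𝔪`  (`dk_point`).
-/

set_option autoImplicit false
set_option linter.unusedSectionVars false
set_option maxHeartbeats 1600000

noncomputable section

namespace Fermat.Agent.H18.SS2

open Polynomial Fermat.Agent.H11.SS2

variable {K L : Type} [Field K] [Field L] [Algebra K L]

/-- The valuation subring attached to a rational point `ψ` of the special fibre of `O[z]`. -/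
theorem dk_point (O : ValuationSubring K) [IsPrincipalIdealRing O] (hO : O ≠ ⊤) (z : L)
    (P₀ : (↥O)[X])
    (hker : ∀ Q : (↥O)[X], aeval z Q = 0 → P₀ ∣ Q)
    (hfrac : ∀ l : L, ∃ (Q : (↥O)[X]) (d : ↥O), d ≠ 0 ∧ l = aeval z Q / algebraMap K L (d : K))
    (ψ : (↥O)[X] →+* IsLocalRing.ResidueField (↥O))
    (hψC : ∀ a : ↥O, ψ (C a) = IsLocalRing.residue (↥O) a) (hψP : ψ P₀ = 0)
    (T : (↥O)[X]) (hT : ψ T = 0) (hT0 : aeval z T ≠ 0)
    (hgenT : ∀ Q : (↥O)[X], ψ Q = 0 → ∃ S B : (↥O)[X], ψ S ≠ 0 ∧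
      aeval z S * aeval z Q = aeval z T * aeval z B) :
    ∃ W : ValuationSubring L,
      (∀ l : L, l ∈ W ↔ ∃ a s : (↥O)[X], ψ s ≠ 0 ∧ l * aeval z s = aeval z a) ∧
      W ≠ ⊤ ∧ IsPrincipalIdealRing W ∧
      (∀ a : (↥O)[X], aeval z a ∈ W.nonunits ↔ ψ a = 0) ∧
      DKUnif W (aeval z T) ∧
      W.comap (algebraMap K L) = O ∧
      DKResOne O W ∧
      (∀ V : ValuationSubring L, V.comap (algebraMap K L) = O → z ∈ V →
        (∀ Q : (↥O)[X], ψ Q = 0 → aeval z Q ∈ V.nonunits) → V = W) := by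
  classical
  have hdvrO : IsDiscreteValuationRing O := wa_isDVR O hO
  -- the ring `A = O[z]`
  set φ : (↥O)[X] →+* L := (aeval z : (↥O)[X] →ₐ[↥O] L).toRingHom with hφ
  have hφapply : ∀ Q, φ Q = aeval z Q := fun Q => rfl
  set A : Subring L := φ.range with hA
  set φ' : (↥O)[X] →+* A := φ.rangeRestrict with hφ'
  have hφ'surj : Function.Surjective φ' := φ.rangeRestrict_surjective
  have hφ'coe : ∀ Q, ((φ' Q : A) : L) = aeval z Q := fun Q => rfl
  have hnoe : IsNoetherianRing A := isNoetherianRing_of_surjective _ _ φ' hφ'surj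
  -- `ψ` factors through `A`
  have hkerle : RingHom.ker φ' ≤ RingHom.ker ψ := by
    intro Q hQ
    rw [RingHom.mem_ker] at hQ ⊢
    have hQ' : aeval z Q = 0 := by
      have := congrArg Subtype.val hQ
      exact this
    obtain ⟨q, rfl⟩ := hker Q hQ'
    rw [map_mul, hψP, zero_mul]
  set ψb : A →+* IsLocalRing.ResidueField (↥O) :=
    RingHom.liftOfSurjective φ' hφ'surj ⟨ψ, hkerle⟩ with hψb
  have hψb_apply : ∀ Q, ψb (φ' Q) = ψ Q := fun Q =>
    RingHom.liftOfRightInverse_comp_apply φ' _ _ ⟨ψ, hkerle⟩ Q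
  have hψsurj : Function.Surjective ψb := by
    intro y
    obtain ⟨a, rfl⟩ := IsLocalRing.residue_surjective (R := ↥O) y
    exact ⟨φ' (C a), by rw [hψb_apply, hψC]⟩
  set 𝔪 : Ideal A := RingHom.ker ψb with h𝔪
  have h𝔪max : 𝔪.IsMaximal := RingHom.ker_isMaximal_of_surjective ψb hψsurj
  have hmem𝔪 : ∀ Q, φ' Q ∈ 𝔪 ↔ ψ Q = 0 := fun Q => by
    rw [h𝔪, RingHom.mem_ker, hψb_apply]
  -- fractions
  have hfracA : ∀ l : L, ∃ a b : A, b ≠ 0 ∧ l = (a : L) / (b : L) := by
    intro l
    obtain ⟨Q, d, hd, hl⟩ := hfrac l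
    refine ⟨φ' Q, φ' (C d), ?_, ?_⟩
    · intro h
      have h1 : ((φ' (C d) : A) : L) = 0 := by rw [h]; rfl
      rw [hφ'coe, aeval_C] at h1
      have h2 : algebraMap K L (d : K) = 0 := h1
      rw [map_eq_zero_iff _ (algebraMap K L).injective] at h2
      exact hd (Subtype.ext h2)
    · rw [hl, hφ'coe, hφ'coe, aeval_C]
      rfl
  -- the uniformiser
  have ht0 : φ' T ≠ 0 := by
    intro h
    apply hT0
    have := congrArg Subtype.val h
    exact this
  have htm : φ' T ∈ 𝔪 := (hmem𝔪 T).mpr hT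
  have hgen' : ∀ a ∈ 𝔪, ∃ s : A, s ∉ 𝔪 ∧ ∃ b : A, s * a = φ' T * b := by
    intro a ha
    obtain ⟨Q, rfl⟩ := hφ'surj a
    obtain ⟨S, B, hS, hSB⟩ := hgenT Q ((hmem𝔪 Q).mp ha)
    refine ⟨φ' S, fun h => hS ((hmem𝔪 S).mp h), φ' B, Subtype.ext ?_⟩
    push_cast
    rw [hφ'coe, hφ'coe, hφ'coe, hφ'coe]
    exact hSB
  obtain ⟨W, hWmem, hWtop, hWpid, hWnon, hWt0, hWtn, hWdiv⟩ :=
    locDvr A hfracA 𝔪 (φ' T) ht0 htm hgen'
  -- translation to polynomials
  have hWmem' : ∀ l : L, l ∈ W ↔ ∃ a s : (↥O)[X], ψ s ≠ 0 ∧ l * aeval z s = aeval z a := by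
    intro l
    rw [hWmem]
    constructor
    · rintro ⟨a, s, hs, hl⟩
      obtain ⟨Qa, rfl⟩ := hφ'surj a
      obtain ⟨Qs, rfl⟩ := hφ'surj s
      exact ⟨Qa, Qs, fun h => hs ((hmem𝔪 Qs).mpr h), hl⟩
    · rintro ⟨a, s, hs, hl⟩
      exact ⟨φ' a, φ' s, fun h => hs ((hmem𝔪 s).mp h), hl⟩
  have hWnon' : ∀ a : (↥O)[X], aeval z a ∈ W.nonunits ↔ ψ a = 0 := by
    intro a
    rw [← hmem𝔪, ← hWnon]
    rfl
  have hAW : ∀ Q : (↥O)[X], aeval z Q ∈ W := fun Q =>
    (hWmem' _).mpr ⟨Q, 1, by rw [map_one]; exact one_ne_zero, by rw [map_one, mul_one]⟩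
  -- the maximal ideal of `O`
  have hOnon : ∀ x : K, x ∈ O.nonunits → algebraMap K L x ∈ W.nonunits := by
    intro x hx
    have hxO : x ∈ O := O.nonunits_subset hx
    have h1 : aeval z (C (⟨x, hxO⟩ : ↥O)) = algebraMap K L x := by
      rw [aeval_C]
      rfl
    rw [← h1, hWnon', hψC, IsLocalRing.residue_eq_zero_iff, ← O.coe_mem_nonunits_iff]
    exact hx
  have hcomap : W.comap (algebraMap K L) = O := by
    ext x
    rw [ValuationSubring.mem_comap]
    constructor
    · intro hx
      by_contra hxO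
      have hx0 : x ≠ 0 := fun h => hxO (h ▸ O.zero_mem)
      have h1 : x⁻¹ ∈ O.nonunits := by
        rw [O.inv_mem_nonunits_iff]
        exact Or.inr hxO
      have h2 := hOnon _ h1
      rw [W.mem_nonunits_iff] at h2
      have h3 : W.valuation (algebraMap K L x) ≤ 1 := (W.valuation_le_one_iff _).mpr hx
      have h4 : W.valuation (algebraMap K L x * algebraMap K L x⁻¹) < 1 := by
        rw [map_mul]
        calc W.valuation (algebraMap K L x) * W.valuation (algebraMap K L x⁻¹)
            ≤ 1 * W.valuation (algebraMap K L x⁻¹) := by gcongr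
          _ = W.valuation (algebraMap K L x⁻¹) := one_mul _
          _ < 1 := h2
      rw [← map_mul, mul_inv_cancel₀ hx0, map_one, map_one] at h4
      exact lt_irrefl _ h4
    · intro hx
      have h1 : aeval z (C (⟨x, hx⟩ : ↥O)) = algebraMap K L x := by
        rw [aeval_C]
        rfl
      rw [← h1]
      exact hAW _
  refine ⟨W, hWmem', hWtop, hWpid, hWnon', ⟨hWt0, hWtn, hWdiv⟩, hcomap, ?_, ?_⟩
  · -- residue degree one
    intro w hw
    obtain ⟨a, s, hs, hl⟩ := (hWmem' w).mp hw
    obtain ⟨o, ho⟩ := IsLocalRing.residue_surjective (R := ↥O) (ψ a / ψ s)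
    refine ⟨(o : K), o.2, ?_⟩
    have h1 : ψ (a - C o * s) = 0 := by
      rw [map_sub, map_mul, hψC, ho]
      field_simp
      ring
    have h2 : aeval z (a - C o * s) ∈ W.nonunits := (hWnon' _).mpr h1
    have h3 : aeval z (a - C o * s) = (w - algebraMap K L (o : K)) * aeval z s := by
      rw [map_sub, map_mul, aeval_C, ← hl]
      have : algebraMap (↥O) L o = algebraMap K L (o : K) := rfl
      rw [this]
      ring
    rw [h3, W.mem_nonunits_iff, map_mul] at h2
    rw [W.mem_nonunits_iff]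
    have h4 : W.valuation (aeval z s) = 1 := by
      have h5 : W.valuation (aeval z s) ≤ 1 := (W.valuation_le_one_iff _).mpr (hAW s)
      have h6 : ¬ W.valuation (aeval z s) < 1 := by
        rw [← W.mem_nonunits_iff, hWnon']
        exact hs
      exact le_antisymm h5 (not_lt.mp h6)
    rwa [h4, mul_one] at h2
  · -- uniqueness
    intro V hV hzV hVnon
    have hOV : ∀ o : ↥O, algebraMap K L (o : K) ∈ V := by
      intro o
      have : (o : K) ∈ V.comap (algebraMap K L) := by rw [hV]; exact o.2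
      exact this
    have hAV : ∀ Q : (↥O)[X], aeval z Q ∈ V := by
      intro Q
      rw [aeval_eq_sum_range]
      refine sum_mem (fun i _ => ?_)
      rw [Algebra.smul_def]
      exact V.mul_mem _ _ (hOV _) (pow_mem hzV i)
    -- elements outside `𝔪` are units of `V`
    have hunit : ∀ S : (↥O)[X], ψ S ≠ 0 → aeval z S ∉ V.nonunits := by
      intro S hS hSn
      have hS' : φ' S ∉ 𝔪 := fun h => hS ((hmem𝔪 S).mp h)
      obtain ⟨y, i, hi, hyi⟩ := h𝔪max.exists_inv hS'
      obtain ⟨Y, rfl⟩ := hφ'surj y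
      obtain ⟨I, rfl⟩ := hφ'surj i
      have h1 : aeval z Y * aeval z S + aeval z I = 1 := by
        have := congrArg Subtype.val hyi
        push_cast at this
        exact this
      have h2 : aeval z I ∈ V.nonunits := hVnon I ((hmem𝔪 I).mp hi)
      have h3 : V.valuation (aeval z Y * aeval z S + aeval z I) < 1 := by
        refine lt_of_le_of_lt (Valuation.map_add _ _ _) (max_lt ?_ (V.mem_nonunits_iff.mp h2))
        rw [map_mul]
        calc V.valuation (aeval z Y) * V.valuation (aeval z S)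
            ≤ 1 * V.valuation (aeval z S) := by
              gcongr
              exact (V.valuation_le_one_iff _).mpr (hAV Y)
          _ = V.valuation (aeval z S) := one_mul _
          _ < 1 := V.mem_nonunits_iff.mp hSn
      rw [h1, map_one] at h3
      exact lt_irrefl _ h3
    have hWV : W.toSubring ≤ V.toSubring := by
      intro l hl
      obtain ⟨a, s, hs, hls⟩ := (hWmem' l).mp hl
      have hs0 : aeval z s ≠ 0 := by
        intro h0
        apply hunit s hs
        rw [h0]
        exact V.nonunits.zero_mem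
      have hsi : (aeval z s)⁻¹ ∈ V := by
        by_contra h
        exact hunit s hs (V.mem_nonunits_iff_or.mpr (Or.inr h))
      have : l = aeval z a * (aeval z s)⁻¹ := by
        rw [← hls]
        field_simp
      rw [this]
      exact V.mul_mem _ _ (hAV a) hsi
    have hVtop : V ≠ ⊤ := by
      intro h
      apply hO
      rw [← hV, h]
      ext x
      simp
    rcases dvr_subring_eq_or_eq_top W hWtop V.toSubring hWV with h | h
    · exact ValuationSubring.toSubring_injective h
    · exfalso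
      apply hVtop
      apply ValuationSubring.toSubring_injective
      rw [h]
      rfl

end Fermat.Agent.H18.SS2
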